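import Fermat.Agent.MazurS.System
import Fermat.Agent.ChebFull.Places
import Fermat.Agent.Wire.CongrAll
import Fermat.Agent.ECRep.FrobAll
import Fermat.Agent.S29

set_option autoImplicit false

/-!
# From congruences at almost all primes to congruences at all good primes, and points of `J₀(M)`
-/

open Polynomial WeierstrassCurve ModularFormClass CongruenceSubgroup ModularCurve

namespace Fermat.Agent.MazG

open Fermat.Agent.ECRep Fermat.Agent.MazurS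

local notation "Γℚ" => (AlgebraicClosure ℚ ≃ₐ[ℚ] AlgebraicClosure ℚ)
local notation "Qb" => AlgebraicClosure ℚ

/-- A congruence at almost all primes gives a congruence at all good primes. -/
theorem isResiduallyModularOfLevel_of_ae {W : WeierstrassCurve ℤ} (hΔ : W.Δ ≠ 0) {p : ℕ}
    (hp : p.Prime) {M : ℕ} (hM : M ≠ 0) {f : CuspForm (Gamma0 M) 2}
    (hf : f.IsNormalizedEigenform) {𝔪 : Ideal (integralClosure ℤ ℂ)} (h𝔪 : 𝔪.IsMaximal)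
    (hp𝔪 : (p : integralClosure ℤ ℂ) ∈ 𝔪) (s : Finset ℕ)
    (h : ∀ ℓ : ℕ, ℓ.Prime → ℓ ∉ s → ∃ a : integralClosure ℤ ℂ, (a : ℂ) = qCoeff f ℓ ∧
      a - ((W.apOfModel ℓ : ℤ) : integralClosure ℤ ℂ) ∈ 𝔪) :
    W.IsResiduallyModularOfLevel p M := by
  classical
  have : Fact p.Prime := ⟨hp⟩
  let _ : Field (integralClosure ℤ ℂ ⧸ 𝔪) := Ideal.Quotient.field 𝔪
  have hchar : ((p : ℕ) : integralClosure ℤ ℂ ⧸ 𝔪) = 0 := by
    rw [← map_natCast (Ideal.Quotient.mk 𝔪)]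
    exact Ideal.Quotient.eq_zero_iff_mem.2 hp𝔪
  have : CharP (integralClosure ℤ ℂ ⧸ 𝔪) p :=
    (CharP.charP_iff_prime_eq_zero Fact.out).2 hchar
  set ρ := resRep (toRat W) p (toRat_Δ_ne_zero hΔ) with hρdef
  obtain ⟨ρ', hρ', -⟩ := Fermat.Agent.S29.result hf hp (k := integralClosure ℤ ℂ ⧸ 𝔪)
    (Ideal.Quotient.mk 𝔪)
  refine ⟨f, 𝔪, hf, h𝔪, hp𝔪, fun ℓ hℓ hg hℓM hℓp => ?_⟩
  obtain ⟨A, hA⟩ := Frob.exists_liesOverPrime Qb hℓ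
  obtain ⟨σ, hσ⟩ := Frob.exists_isFrobeniusAt A hℓ hA
  obtain ⟨L, hL, hLρ⟩ := ρ.factorsThroughFiniteLevel
  obtain ⟨L', hL', hLρ'⟩ := ρ'.factorsThroughFiniteLevel
  obtain ⟨q, hq, hqS, -, B, hB, φ, hφ, he⟩ := ChebFull.exists_frobenius_eq_of_factors
    (ρ.ρ.prod ρ'.ρ) ⟨L ⊔ L', IntermediateField.finiteDimensional_sup _ _, fun τ hτ => by
      refine Prod.ext (hLρ τ fun x hx => hτ x (le_sup_left (a := L) hx))
        (hLρ' τ fun x hx => hτ x (le_sup_right (a := L) hx))⟩ σ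
      (s ∪ {p} ∪ W.Δ.natAbs.primeFactors ∪ M.primeFactors)
  simp only [Finset.mem_union, Finset.mem_singleton, not_or] at hqS
  obtain ⟨⟨⟨hqs, hqp⟩, hqW⟩, hqM⟩ := hqS
  have gq : W.IsGoodPrimeFor q := fun hd => hqW (Nat.mem_primeFactors.mpr
    ⟨hq, Int.natCast_dvd.mp hd, Int.natAbs_ne_zero.mpr hΔ⟩)
  have hqM' : ¬ q ∣ M := fun hd => hqM (Nat.mem_primeFactors.mpr ⟨hq, hd, hM⟩)
  have e1 : ρ.ρ φ = ρ.ρ σ := congrArg Prod.fst he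
  have e2 : ρ'.ρ φ = ρ'.ρ σ := congrArg Prod.snd he
  have t1 := Wire.trace_of_charpoly ρ.finrank_eq (charpoly_frob_res W hΔ hℓ hℓp hA hg hσ)
  have t2 := Wire.trace_of_charpoly ρ.finrank_eq (charpoly_frob_res W hΔ hq hqp hB gq hφ)
  have hne : ∀ r : ℕ, r.Prime → r ≠ p → ((r : ℕ) : integralClosure ℤ ℂ ⧸ 𝔪) ≠ 0 := by
    intro r hr hrp h0
    exact hrp ((Nat.prime_dvd_prime_iff_eq hp hr).1
      ((CharP.cast_eq_zero_iff (integralClosure ℤ ℂ ⧸ 𝔪) p r).1 h0)).symm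
  obtain ⟨al, hal, hcl⟩ := hρ' ℓ hℓ hℓM (hne ℓ hℓ hℓp) A hA σ hσ
  obtain ⟨aq, haq, hcq⟩ := hρ' q hq hqM' (hne q hq hqp) B hB φ hφ
  have t3 := Wire.trace_of_charpoly ρ'.finrank_eq hcl
  have t4 := Wire.trace_of_charpoly ρ'.finrank_eq hcq
  obtain ⟨a, ha, ha'⟩ := h q hq hqs
  have e3 : a = aq := Subtype.ext (ha.trans haq.symm)
  subst e3
  refine ⟨al, hal, ?_⟩
  rw [← Ideal.Quotient.eq_zero_iff_mem, map_sub, map_intCast] at ha' ⊢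
  have e4 : ((W.apOfModel ℓ : ℤ) : ZMod p) = ((W.apOfModel q : ℤ) : ZMod p) := by
    rw [← t1, ← t2, e1]
  have e5 : ((W.apOfModel ℓ : ℤ) : integralClosure ℤ ℂ ⧸ 𝔪) =
      ((W.apOfModel q : ℤ) : integralClosure ℤ ℂ ⧸ 𝔪) := by
    have h6 := (ZMod.intCast_eq_intCast_iff_dvd_sub _ _ p).1 e4
    obtain ⟨c, hc⟩ := h6
    have h7 : W.apOfModel q = W.apOfModel ℓ + p * c := by linear_combination hc
    rw [h7]
    push_cast
    rw [hchar]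
    ring
  rw [e2, t3] at t4
  rw [t4, e5]
  exact ha'

/-- A residually modular curve occurs in the torsion of the Jacobian. -/
theorem exists_point_of_modular {W : WeierstrassCurve ℤ} (hΔ : W.Δ ≠ 0) {p : ℕ}
    [hp : Fact p.Prime] {N : ℕ} [NeZero N] (hmod : W.IsResiduallyModularOfLevel p N) :
    ∃ S : Set ℕ, S.Finite ∧ p ∈ S ∧ (∀ q : ℕ, q.Prime → (q : ℤ) ∣ W.Δ → q ∈ S) ∧
      ∃ x : JZero N, x ≠ 0 ∧ p • x = 0 ∧ ∀ (ℓ : ℕ) (hℓ : ℓ.Prime), ¬ ℓ ∣ N → ℓ ∉ S →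
        heckeOperatorBar N ⟨ℓ, hℓ⟩ x = W.apOfModel ℓ • x := by
  obtain ⟨f, 𝔪, hf, h𝔪, hp𝔪, h⟩ := hmod
  have hmem : ∀ q : ℕ, q.Prime → (q : ℤ) ∣ W.Δ →
      q ∈ ((insert p W.Δ.natAbs.primeFactors : Finset ℕ) : Set ℕ) := by
    intro q hq hd
    rw [Finset.mem_coe, Finset.mem_insert]
    exact Or.inr (Nat.mem_primeFactors.mpr ⟨hq, Int.natCast_dvd.mp hd,
      Int.natAbs_ne_zero.mpr hΔ⟩)
  have hpmem : p ∈ ((insert p W.Δ.natAbs.primeFactors : Finset ℕ) : Set ℕ) := by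
    rw [Finset.mem_coe, Finset.mem_insert]
    exact Or.inl rfl
  refine ⟨_, Finset.finite_toSet _, hpmem, hmem, ?_⟩
  refine exists_point hpmem hf h𝔪 hp𝔪 (fun ℓ => W.apOfModel ℓ) fun ℓ hℓ hℓN hℓS => ?_
  exact h ℓ hℓ (fun hd => hℓS (hmem ℓ hℓ hd)) hℓN (fun he => hℓS (he ▸ hpmem))

end Fermat.Agent.MazG
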