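import Fermat.Agent.MazG.OrdFlat

set_option autoImplicit false

/-!
# Inertia groups at `p` with an adapted basis on `W[p]`

`MazurS.false_of_inertia` with the multiplicative reduction at `p`
replaced by the existence of a basis of `W[p]` in which the inertia group has matrices
`(* *; 0 1)`.
-/

open Matrix WeierstrassCurve Fermat.Agent Fermat.Agent.ECRep Fermat.Agent.DefRing
  Fermat.Agent.LL Fermat.Agent.MazurS
open scoped WeierstrassCurve.Affine

namespace Fermat.Agent.MazG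

local notation "Γℚ" => (AlgebraicClosure ℚ ≃ₐ[ℚ] AlgebraicClosure ℚ)
local notation "Qb" => AlgebraicClosure ℚ

variable (W : WeierstrassCurve ℤ) {p : ℕ} [Fact p.Prime]

/-- the trace of the inertia group -/
theorem trace_of_ordBasis (hΔ : W.Δ ≠ 0) {A : ValuationSubring Qb}
    (hord : OrdBasis W p hΔ A) {σ : Γℚ}
    (hσ : σ ∈ A.inertiaSubgroupIn ℚ) :
    LinearMap.trace _ _ ((resRep (toRat W) p (toRat_Δ_ne_zero hΔ)).ρ σ) =
      LinearMap.det ((resRep (toRat W) p (toRat_Δ_ne_zero hΔ)).ρ σ) + 1 := by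
  obtain ⟨r, ⟨b, hb⟩, h01⟩ := hord
  rw [← LinearMap.det_toMatrix b, LinearMap.trace_eq_matrix_trace (ZMod p) b, hb,
    Matrix.det_fin_two, Matrix.trace_fin_two, (h01 σ hσ).1, (h01 σ hσ).2]
  ring

variable {N : ℕ} [NeZero N] {J : Type} [AddCommGroup J] [DistribMulAction Γℚ J] {T : Nat.Primes → J →+ J}

/-- **(G4)** the final contradiction, for an inertia group with trace `det + 1`. -/
theorem false_of_inertia (hΔ : W.Δ ≠ 0) (hp2 : p ≠ 2) (hJ : JData N p T)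
    (hirr : (resRep (toRat W) p (toRat_Δ_ne_zero hΔ)).IsIrreducible)
    {A : ValuationSubring Qb} (hA : A.LiesOverPrime p)
    (htrI : ∀ σ ∈ A.inertiaSubgroupIn ℚ,
      LinearMap.trace _ _ ((resRep (toRat W) p (toRat_Δ_ne_zero hΔ)).ρ σ) =
      LinearMap.det ((resRep (toRat W) p (toRat_Δ_ne_zero hΔ)).ρ σ) + 1)
    (V : AddSubgroup J) (hV : V ≠ ⊥)
    (hstab : ∀ σ : Γℚ, ∀ x ∈ V, σ • x ∈ V) (hs : ∀ x ∈ V, p • x = 0 ∧ IsSys W p N T x)
    (hI : ∀ σ ∈ A.inertiaSubgroupIn ℚ, ∀ a : ℕ, (∀ z : Qb, z ^ p = 1 → σ z = z ^ a) →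
      ∀ x ∈ V, σ • x = a • x) : False := by
  have hp := (Fact.out : p.Prime)
  obtain ⟨x, hx, hx0⟩ : ∃ x ∈ V, x ≠ 0 := by
    by_contra hcon
    push Not at hcon
    exact hV ((AddSubgroup.eq_bot_iff_forall V).mpr hcon)
  obtain ⟨τ, hτ, hτ1⟩ := exists_inertia_cycloChar p hp2 hA
  set ρ := resRep (toRat W) p (toRat_Δ_ne_zero hΔ) with hρ
  set a : ZMod p := ((ExtCitation.cycloChar p τ : (ZMod p)ˣ) : ZMod p) with ha
  have ha1 : a ≠ 1 := fun h => hτ1 (Units.ext h)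
  have hroot : ∀ z : Qb, z ^ p = 1 → τ z = z ^ a.val := fun z hz =>
    CycChar.apply_eq_pow_cycloChar p τ hz
  have hdet : LinearMap.det (ρ.ρ τ) = a := by
    rw [hρ, det_resRep_eq W p hΔ τ a.val hroot, ZMod.natCast_zmod_val]
  have htr : LinearMap.trace _ _ (ρ.ρ τ) = a + 1 := by
    rw [htrI τ hτ, hdet]
  have hmdet : ∀ σ, (rm ρ σ).det = LinearMap.det (ρ.ρ σ) := fun σ => by
    rw [rm_apply, LinearMap.det_toMatrix]
  have hmtr : ∀ σ, (rm ρ σ).trace = LinearMap.trace _ _ (ρ.ρ σ) := fun σ => by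
    rw [rm_apply, LinearMap.trace_eq_matrix_trace (ZMod p) (rb ρ)]
  obtain ⟨v, hv, hstable⟩ := exists_stable_of_trace_two (rm ρ) (τ := τ) ha1
    (by rw [hmtr, htr]) (by rw [hmdet, hdet]) (fun g => by
      rw [hmtr]
      have hfix : (g * τ * g⁻¹ * τ⁻¹) • x = x := by
        set y := τ⁻¹ • x with hy
        have hyV : y ∈ V := hstab _ x hx
        have h1 : τ • (g⁻¹ • y) = a.val • (g⁻¹ • y) := hI τ hτ a.val hroot _ (hstab _ y hyV)
        have h2 : τ • y = a.val • y := hI τ hτ a.val hroot _ hyV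
        have h3 : g⁻¹ • (a.val • y) = a.val • (g⁻¹ • y) :=
          map_nsmul (DistribSMul.toAddMonoidHom J g⁻¹) a.val y
        rw [mul_smul, ← hy, mul_smul, mul_smul, h1, ← h3, smul_inv_smul, ← h2, hy, smul_inv_smul]
      have hdc : LinearMap.det (ρ.ρ (g * τ * g⁻¹ * τ⁻¹)) = 1 := by
        have h1 : ∀ σ : Γℚ, LinearMap.det (ρ.ρ σ) * LinearMap.det (ρ.ρ σ⁻¹) = 1 := fun σ => by
          rw [← map_mul, ← map_mul, mul_inv_cancel, map_one, map_one]
        rw [map_mul, map_mul, map_mul, map_mul, map_mul, map_mul]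
        linear_combination (LinearMap.det (ρ.ρ τ) * LinearMap.det (ρ.ρ τ⁻¹)) * h1 g + h1 τ
      obtain ⟨t, ht⟩ := ZMod.intCast_surjective
        (LinearMap.trace _ _ (ρ.ρ (g * τ * g⁻¹ * τ⁻¹)))
      have h1 := rel W hΔ hJ (g * τ * g⁻¹ * τ⁻¹) (t := t) (d := 1) ht (by
        rw [← hρ, hdc]; norm_num) (hs x hx).1 (hs x hx).2
      rw [hfix, hfix, one_smul] at h1
      have h2 : (2 - t) • x = 0 := by
        rw [sub_smul, two_smul, ← h1]; abel
      have h3 : addOrderOf x = p := addOrderOf_eq_prime (hs x hx).1 hx0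
      have h4 := addOrderOf_dvd_iff_zsmul_eq_zero.mpr h2
      rw [h3, ← ZMod.intCast_zmod_eq_zero_iff_dvd] at h4
      rw [← ht]
      push_cast at h4
      linear_combination -h4)
  obtain ⟨γ, hγ⟩ := rm_irr ρ hirr v hv
  obtain ⟨c, hc'⟩ := hstable γ
  exact hγ c hc'

end Fermat.Agent.MazG
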