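import Mathlib
import Fermat.Agent.Top.Index
import Fermat.Agent.Top.NormC
import Fermat.Agent.Top.PlaceLift
import Fermat.Agent.Red.Haupt

/-!
# The degeneracy maps agree at the elliptic points of order three
-/

set_option autoImplicit false
set_option linter.unusedSectionVars false
set_option linter.style.haveILetI false

noncomputable section

namespace Fermat.Agent.MazG

open UpperHalfPlane hiding I
open ModularForm Filter Topology Fermat.Agent.ModFn Fermat.Agent.Support Polynomial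
open ModularCurve IntermediateField Fermat.Agent.FF WithZero AlgebraicCurve Fermat.Agent.JZ
open Fermat.Agent.Top
open scoped MatrixGroups Manifold

/-! ### Integral matrices commuting with an element of order three -/

theorem dvd_of_proportional {a b c d x y z : ℤ} (hdet : a * d - b * c = 1) (htr : a + d = 1)
    (h1 : x * (d - a) = c * y) (h2 : x * b = c * z) : c ∣ x := by
  have hD : (d - a) ^ 2 + 4 * b * c = -3 := by
    have : (d - a) ^ 2 + 4 * b * c = (a + d) ^ 2 - 4 * (a * d - b * c) := by ring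
    rw [this, hdet, htr]; norm_num
  set g := Int.gcd c (d - a) with hg
  have hg1 : (g : ℤ) = c * Int.gcdA c (d - a) + (d - a) * Int.gcdB c (d - a) :=
    Int.gcd_eq_gcd_ab _ _
  set g' := Int.gcd g b with hg'
  have hg2 : (g' : ℤ) = g * Int.gcdA g b + b * Int.gcdB g b := Int.gcd_eq_gcd_ab _ _
  have h3 : c ∣ x * g := by
    rw [hg1]
    obtain ⟨u, hu⟩ : ∃ u, u = Int.gcdA c (d - a) := ⟨_, rfl⟩
    obtain ⟨v, hv⟩ : ∃ v, v = Int.gcdB c (d - a) := ⟨_, rfl⟩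
    rw [← hu, ← hv]
    exact ⟨x * u + y * v, by linear_combination v * h1⟩
  have h4 : c ∣ x * g' := by
    rw [hg2, mul_add]
    refine dvd_add ?_ ?_
    · rw [← mul_assoc]
      exact h3.mul_right _
    · obtain ⟨v, hv⟩ : ∃ v, v = Int.gcdB g b := ⟨_, rfl⟩
      rw [← hv]
      exact ⟨z * v, by linear_combination v * h2⟩
  have e1 : (g' : ℤ) ∣ c := (Int.gcd_dvd_left ..).trans (Int.gcd_dvd_left ..)
  have e2 : (g' : ℤ) ∣ d - a := (Int.gcd_dvd_left ..).trans (Int.gcd_dvd_right ..)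
  have e3 : (g' : ℤ) ∣ b := Int.gcd_dvd_right ..
  have e4 : (g' : ℤ) ^ 2 ∣ 3 := by
    rw [← dvd_neg, ← hD, pow_two, pow_two]
    refine dvd_add (mul_dvd_mul e2 e2) ?_
    rw [mul_assoc]
    exact (mul_dvd_mul e3 e1).mul_left 4
  have e5 : g' = 1 := by
    have e6 : g' ^ 2 ∣ 3 := by exact_mod_cast e4
    have e7 : g' ^ 2 ≤ 3 := Nat.le_of_dvd (by norm_num) e6
    have e8 : g' ≠ 0 := by
      intro h0
      rw [h0] at e6
      norm_num at e6
    have : g' < 2 := by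
      by_contra hcon
      nlinarith
    omega
  rw [e5] at h4
  simpa using h4

/-- the quadratic equation of a fixed point of an integral matrix -/
theorem act_fix_eq {A : Matrix (Fin 2) (Fin 2) ℤ} {τ : ℍ}
    (h : (A 0 0 : ℂ) * τ + A 0 1 = ((A 1 0 : ℂ) * τ + A 1 1) * τ) :
    (A 1 0 : ℂ) * τ ^ 2 + ((A 1 1 : ℂ) - A 0 0) * τ - A 0 1 = 0 := by
  linear_combination -h

theorem int_rel {τ : ℍ} {u v : ℤ} (h : (u : ℂ) * τ + v = 0) : u = 0 ∧ v = 0 := by
  have h5 := congrArg Complex.im h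
  have h6 := τ.im_pos
  have h7 : (u : ℝ) * τ.im = 0 := by
    rw [← Complex.ofReal_intCast, ← Complex.ofReal_intCast, Complex.add_im, Complex.im_ofReal_mul,
      Complex.ofReal_im, add_zero, Complex.zero_im] at h5
    exact h5
  have hu : u = 0 := by
    rcases mul_eq_zero.mp h7 with h8 | h8
    · exact_mod_cast h8
    · exact absurd h8 h6.ne'
  refine ⟨hu, ?_⟩
  rw [hu, Int.cast_zero, zero_mul, zero_add] at h
  exact_mod_cast h

/-- If `γ ∈ Γ₀(M l)` fixes `τ` and has trace one and `l τ = δ τ`, then `δ ∈ Γ₀(M)`. -/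
theorem mem_Gamma0_of_ell {M l : ℕ} (hl : l ≠ 0) {γ δ : SL(2, ℤ)} {τ τ' : ℍ}
    (hτ' : (τ' : ℂ) = l * τ)
    (hγ : γ • τ = τ) (htr : γ 0 0 + γ 1 1 = 1) (hmem : γ ∈ CongruenceSubgroup.Gamma0 (M * l))
    (hδ : τ' = δ • τ) : δ ∈ CongruenceSubgroup.Gamma0 M := by
  have h1 := fix_eq hγ
  have hdet : γ 0 0 * γ 1 1 - γ 0 1 * γ 1 0 = 1 := by
    have h := γ.det_coe
    rw [Matrix.det_fin_two] at h
    exact h
  have hdetδ : δ 0 0 * δ 1 1 - δ 0 1 * δ 1 0 = 1 := by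
    have h := δ.det_coe
    rw [Matrix.det_fin_two] at h
    exact h
  have hden : ((δ 1 0 : ℂ) * τ + δ 1 1) ≠ 0 := by
    have := denom_ne_zero δ τ
    rwa [ModularGroup.denom_apply] at this
  have h2 : (l : ℂ) * τ * ((δ 1 0 : ℂ) * τ + δ 1 1) = (δ 0 0 : ℂ) * τ + δ 0 1 := by
    rw [← hτ', hδ, UpperHalfPlane.coe_specialLinearGroup_apply]
    have h3 : ((δ 0 0 : ℂ) * τ + δ 0 1) / ((δ 1 0 : ℂ) * τ + δ 1 1) *
      ((δ 1 0 : ℂ) * τ + δ 1 1) = (δ 0 0 : ℂ) * τ + δ 0 1 := div_mul_cancel₀ _ hden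
    exact h3
  -- `x τ² + y τ - z = 0` with `x = l δ₁₀`, `y = l δ₁₁ - δ₀₀`, `z = δ₀₁`
  obtain ⟨a, ha⟩ : ∃ a, a = γ 0 0 := ⟨_, rfl⟩
  obtain ⟨b, hb⟩ : ∃ b, b = γ 0 1 := ⟨_, rfl⟩
  obtain ⟨c, hc⟩ : ∃ c, c = γ 1 0 := ⟨_, rfl⟩
  obtain ⟨d, hd⟩ : ∃ d, d = γ 1 1 := ⟨_, rfl⟩
  rw [← ha, ← hb, ← hc, ← hd] at h1
  rw [← ha, ← hb, ← hc, ← hd] at hdet
  rw [← ha, ← hd] at htr
  have h3 : (((l * δ 1 0 : ℤ) * (d - a) - c * ((l : ℤ) * δ 1 1 - δ 0 0) : ℤ) : ℂ) * τ +
      ((c * δ 0 1 - (l * δ 1 0) * b : ℤ) : ℂ) = 0 := by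
    push_cast
    linear_combination (l * δ 1 0 : ℂ) * h1 - (c : ℂ) * h2
  obtain ⟨h4, h5⟩ := int_rel h3
  have h6 : c ∣ (l : ℤ) * δ 1 0 := dvd_of_proportional (a := a) (b := b) (c := c) (d := d)
    (x := (l : ℤ) * δ 1 0) (y := (l : ℤ) * δ 1 1 - δ 0 0) (z := δ 0 1) hdet htr
    (by linarith) (by linarith)
  rw [CongruenceSubgroup.Gamma0_mem, ZMod.intCast_zmod_eq_zero_iff_dvd, ← hc] at hmem
  rw [CongruenceSubgroup.Gamma0_mem, ZMod.intCast_zmod_eq_zero_iff_dvd]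
  have h7 := hmem.trans h6
  rw [Nat.cast_mul, mul_comm (M : ℤ)] at h7
  exact (mul_dvd_mul_iff_left (by exact_mod_cast hl : (l : ℤ) ≠ 0)).mp h7

/-! ### Over `ℂ` -/

section C

variable {M l : ℕ} [NeZero M] [NeZero l]

/-- `j_d - a` as an element of `W_N` for `d ∣ N` -/
def jdSub {N d : ℕ} [NeZero N] [NeZero d] (h : d ∣ N) (a : ℂ) : WN N :=
  ⟨jd d, jd_mem_WN h⟩ - algebraMap ℂ (WN N) a

theorem ordZ_jdSub {N d : ℕ} [NeZero N] [NeZero d] (h : d ∣ N) (τ : ℍ) :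
    ordZ (jdSub h (jd d τ)).1 τ =
    if jd d τ = 0 then 3 else if jd d τ = 1728 then 2 else 1 := by
  have h1 : (jdSub h (jd d τ)).1 = fun z => (fun y => jH y - jH (act !![(d : ℤ), 0; 0, 1] τ))
      (act !![(d : ℤ), 0; 0, 1] z) := rfl
  have h2 := ordAt_comp_diag (N := d) (f := fun y => jH y - jH (act !![(d : ℤ), 0; 0, 1] τ)) τ
  rw [h1, ordZ, h2, ordAt_jH_sub, jd]
  split_ifs <;> rfl

theorem jdSub_ne_zero {N d : ℕ} [NeZero N] [NeZero d] (h : d ∣ N) (τ : ℍ) :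
    jdSub h (jd d τ) ≠ 0 := by
  intro h0
  have h1 := ordZ_jdSub h τ
  rw [h0] at h1
  have h2 : ordZ (0 : WN N).1 τ = 0 := by
    have : ordAt (0 : WN N).1 τ = ⊤ := (ordAt_eq_top (WN.mdiff 0) τ).mpr rfl
    rw [ordZ, this]; rfl
  rw [h2] at h1
  split_ifs at h1 <;> omega

/-- At an elliptic point of order three, all the `j_d`, `d ∣ N`, vanish. -/
theorem jd_eq_zero_of_three {N d : ℕ} [NeZero N] [NeZero d] (h : d ∣ N) {τ : ℍ}
    {P : Place ℂ (FC N)} (hP : IsPtPlace τ P 3) : jd d τ = 0 := by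
  have h1 : ((3 : ℕ) : ℤ) ∣ ordZ (jdSub h (jd d τ)).1 τ := ⟨_, hP.2 _ (jdSub_ne_zero h τ)⟩
  rw [ordZ_jdSub] at h1
  split_ifs at h1 with h2 h3
  · exact h2
  · norm_num at h1
  · norm_num at h1

/-- A place with `ord j = 1` comes from an elliptic point of order three. -/
theorem exists_isPtPlace_three {N : ℕ} [NeZero N] {P : Place ℂ (FC N)} (hP : P.ord (jF N) = 1) :
    ∃ τ : ℍ, IsPtPlace τ P 3 ∧ jH τ = 0 := by
  obtain ⟨τ, e, h⟩ := exists_isPtPlace_of_ord_nonneg P (by rw [hP]; norm_num)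
  have h0 : jSub N 0 ≠ 0 := jSub_ne_zero 0
  have h1 := h.2 (jSub N 0) h0
  have h2 : toFC N (jSub N 0) = jF N := by rw [toFC_jSub, map_zero, sub_zero]
  rw [h2, hP, mul_one] at h1
  have h3 : jH τ = 0 := by
    by_contra h3
    have h4 : ordZ (jSub N 0).1 τ = 0 := by
      rw [ordZ_eq_zero (WN.mdiff _) (WN.coe_ne_zero h0), coe_jSub]
      simpa using h3
    rw [h4] at h1
    have := h.1
    omega
  have h5 := ordZ_jSub (N := N) τ
  rw [h3, if_pos rfl, h1] at h5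
  have h6 : e = 3 := by exact_mod_cast h5
  subst h6
  exact ⟨τ, h, h3⟩

theorem ord_toFC_eq {N : ℕ} [NeZero N] {τ : ℍ} {P : Place ℂ (FC N)} {e : ℕ}
    (h : IsPtPlace τ P e) {g g' : WN N} (hg : g ≠ 0) (hg' : g' ≠ 0)
    (hgg' : ordZ g.1 τ = ordZ g'.1 τ) : P.ord (toFC N g) = P.ord (toFC N g') := by
  have h1 := h.2 g hg
  have h2 := h.2 g' hg'
  rw [hgg', h2] at h1
  exact (mul_left_cancel₀ (by exact_mod_cast h.1.ne' : (e : ℤ) ≠ 0) h1).symm

theorem alphaW_ne_zero {g : WN M} (hg : g ≠ 0) : alphaW M l g ≠ 0 := by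
  intro h
  have h1 := alpha_toFC (ℓ := l) g
  rw [h, map_zero, map_eq_zero] at h1
  exact toFC_ne_zero hg h1

theorem betaW_ne_zero {g : WN M} (hg : g ≠ 0) : betaW M l g ≠ 0 := by
  intro h
  have h1 := beta_toFC (ℓ := l) g
  rw [h, map_zero, map_eq_zero] at h1
  exact toFC_ne_zero hg h1

/-- **The degeneracy maps agree at the elliptic places of order three**, over `ℂ`. -/
theorem ord_alpha_eq_beta_C {P : Place ℂ (FC (M * l))} (hP : P.ord (jF (M * l)) = 1) (f : FC M) :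
    P.ord (heckeAlphaBar ℂ M l f) = P.ord (heckeBetaBar ℂ M l f) := by
  obtain ⟨τ, h, hj⟩ := exists_isPtPlace_three hP
  have hjN : jd (M * l) τ = 0 := jd_eq_zero_of_three dvd_rfl h
  have hjl : jd l τ = 0 := jd_eq_zero_of_three (dvd_mul_left l M) h
  obtain ⟨γ, hγ, htr⟩ := exists_fix_trace_one hj
  obtain ⟨γ', hγ', htr'⟩ := exists_fix_trace_one (τ := act !![((M * l : ℕ) : ℤ), 0; 0, 1] τ) hjN
  have hmem : γ ∈ CongruenceSubgroup.Gamma0 (M * l) :=
    mem_Gamma0_of_fix (coe_act_diag (M * l) τ) hγ hγ' (by rw [htr, htr']) (by rw [htr]; norm_num)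
  obtain ⟨δ, hδ⟩ := jH_eq_iff.mp (hjl.trans hj.symm : jH (act !![(l : ℤ), 0; 0, 1] τ) = jH τ)
  have hδM : δ ∈ CongruenceSubgroup.Gamma0 M :=
    mem_Gamma0_of_ell (NeZero.ne l) (coe_act_diag l τ) hγ htr hmem hδ
  have key : ∀ g : WN M, g ≠ 0 → P.ord (heckeAlphaBar ℂ M l (toFC M g)) =
      P.ord (heckeBetaBar ℂ M l (toFC M g)) := by
    intro g hg
    rw [alpha_toFC, beta_toFC]
    refine ord_toFC_eq h (alphaW_ne_zero hg) (betaW_ne_zero hg) ?_
    rw [coe_alphaW, coe_betaW]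
    have h1 := ordAt_comp_diag (N := l) (f := g.1) τ
    rw [ordZ, ordZ, h1, hδ, ← ordAt_comp_smul]
    have h2 : (fun z => g.1 (δ • z)) = g.1 := funext fun z => g.2.2 δ hδM z
    rw [h2]
  obtain ⟨a, b, hb, rfl⟩ := exists_div f
  by_cases ha : a = 0
  · rw [ha, map_zero, zero_div, map_zero, map_zero]
  have ha' := toFC_ne_zero ha
  have hb' := toFC_ne_zero hb
  rw [map_div₀, map_div₀, div_eq_mul_inv, div_eq_mul_inv,
    Place.ord_mul _ ((_root_.map_ne_zero _).mpr ha')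
      (inv_ne_zero ((_root_.map_ne_zero _).mpr hb')),
    Place.ord_mul _ ((_root_.map_ne_zero _).mpr ha')
      (inv_ne_zero ((_root_.map_ne_zero _).mpr hb')), Place.ord_inv, Place.ord_inv, key a ha,
    key b hb]

end C

/-! ### Over `ℚ̄` -/

section Qbar

local notation "Qb" => AlgebraicClosure ℚ

variable {M l : ℕ} [NeZero M] [NeZero l]

theorem emb_alpha [Algebra Qb ℂ] (f : modularFunctionFieldBar M) :
    baseChangeEmb Qb ℂ (modularFunctionFieldFull (M * l)) (heckeAlphaBar Qb M l f) =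
      heckeAlphaBar ℂ M l (baseChangeEmb Qb ℂ (modularFunctionFieldFull M) f) := by
  apply Subtype.ext
  rw [coe_baseChangeEmb, coe_heckeAlphaBar, coe_heckeAlphaBar, coe_baseChangeEmb]

theorem emb_beta [Algebra Qb ℂ] (f : modularFunctionFieldBar M) :
    baseChangeEmb Qb ℂ (modularFunctionFieldFull (M * l)) (heckeBetaBar Qb M l f) =
      heckeBetaBar ℂ M l (baseChangeEmb Qb ℂ (modularFunctionFieldFull M) f) := by
  apply Subtype.ext
  rw [coe_baseChangeEmb, coe_heckeBetaBar, coe_heckeBetaBar, coe_baseChangeEmb,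
    ModFn.coeffMap_qExpand]

theorem emb_jB {N : ℕ} [NeZero N] [Algebra Qb ℂ] :
    baseChangeEmb Qb ℂ (modularFunctionFieldFull N) (Red.jB N) = jF N := by
  apply Subtype.ext
  rw [coe_baseChangeEmb, Red.coe_jB]
  exact ModFn.coeffMap_jqModC (algebraMap Qb ℂ)

/-- In characteristic zero the order of `j` at a zero is `1` or `3`. -/
theorem ord_jB_eq {N : ℕ} [NeZero N] {P : Place Qb (modularFunctionFieldBar N)}
    (h0 : 0 < P.ord (Red.jB N)) : P.ord (Red.jB N) = 1 ∨ P.ord (Red.jB N) = 3 := by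
  have : Algebra.IsAlgebraic ℚ Qb := AlgebraicClosure.isAlgebraic ℚ
  let _ : Algebra Qb ℂ := (IsAlgClosed.lift (R := ℚ) (S := Qb) (M := ℂ)).toRingHom.toAlgebra
  haveI := Red.isFnField_bar N
  obtain ⟨v, hv⟩ := exists_place_lift ℂ P
  have hvj : v.ord (jF N) = P.ord (Red.jB N) := by rw [← emb_jB, hv]
  rw [← hvj] at h0 ⊢
  obtain ⟨τ, e, h⟩ := exists_isPtPlace_of_ord_nonneg v h0.le
  have h0' : jSub N 0 ≠ 0 := jSub_ne_zero 0
  have h1 := h.2 (jSub N 0) h0'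
  have h2 : toFC N (jSub N 0) = jF N := by rw [toFC_jSub, map_zero, sub_zero]
  rw [h2] at h1
  have he := h.1
  have h3 : jH τ = 0 := by
    by_contra h3
    have h4 : ordZ (jSub N 0).1 τ = 0 := by
      rw [ordZ_eq_zero (WN.mdiff _) (WN.coe_ne_zero h0'), coe_jSub]
      simpa using h3
    rw [h4] at h1
    have h5 : (0 : ℤ) < e * v.ord (jF N) := by positivity
    omega
  have h5 := ordZ_jSub (N := N) τ
  rw [h3, if_pos rfl, h1] at h5
  have h6 : v.ord (jF N) ∣ 3 := ⟨e, by rw [mul_comm]; exact h5.symm⟩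
  obtain ⟨m, hm⟩ : ∃ m : ℕ, v.ord (jF N) = m := ⟨(v.ord (jF N)).toNat, by omega⟩
  rw [hm] at h6 ⊢
  have h7 : m ∣ 3 := by exact_mod_cast h6
  rcases (Nat.dvd_prime Nat.prime_three).mp h7 with h8 | h8
  · left; rw [h8]; rfl
  · right; rw [h8]; rfl

/-- **The degeneracy maps agree at the elliptic places of order three**, over `ℚ̄`. -/
theorem ord_alpha_eq_beta {P : Place Qb (modularFunctionFieldBar (M * l))}
    (h0 : 0 < P.ord (Red.jB (M * l))) (h3 : ¬ (3 : ℤ) ∣ P.ord (Red.jB (M * l)))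
    (f : modularFunctionFieldBar M) :
    P.ord (heckeAlphaBar Qb M l f) = P.ord (heckeBetaBar Qb M l f) := by
  have hP : P.ord (Red.jB (M * l)) = 1 := by
    rcases ord_jB_eq h0 with h | h
    · exact h
    · exact absurd (by rw [h]) h3
  have : Algebra.IsAlgebraic ℚ Qb := AlgebraicClosure.isAlgebraic ℚ
  let _ : Algebra Qb ℂ := (IsAlgClosed.lift (R := ℚ) (S := Qb) (M := ℂ)).toRingHom.toAlgebra
  haveI := Red.isFnField_bar (M * l)
  obtain ⟨v, hv⟩ := exists_place_lift ℂ P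
  have hvj : v.ord (jF (M * l)) = 1 := by rw [← emb_jB, hv, hP]
  rw [← hv, ← hv, emb_alpha, emb_beta]
  exact ord_alpha_eq_beta_C hvj _

/-- **The degeneracy maps agree at the elliptic places of order three**, over `ℚ̄`. -/
theorem restrictAlong_alpha_eq_beta (P : Place Qb (modularFunctionFieldBar (M * l)))
    (h0 : 0 < P.ord (Red.jB (M * l))) (h3 : ¬ (3 : ℤ) ∣ P.ord (Red.jB (M * l)))
    (hα : (heckeAlphaBar Qb M l).toRingHom.IsIntegral)
    (hβ : (heckeBetaBar Qb M l).toRingHom.IsIntegral) :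
    P.restrictAlong (heckeAlphaBar Qb M l) hα = P.restrictAlong (heckeBetaBar Qb M l) hβ := by
  apply Place.ext
  ext x
  rw [JZ.mem_restrictAlong, JZ.mem_restrictAlong]
  have h1 := ord_alpha_eq_beta h0 h3 x
  constructor
  · intro h
    exact FF.mem_of_ord_nonneg _ (h1 ▸ FF.ord_nonneg_of_mem _ h)
  · intro h
    exact FF.mem_of_ord_nonneg _ (h1 ▸ FF.ord_nonneg_of_mem _ h)

end Qbar

end Fermat.Agent.MazG
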