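import Fermat.Agent.MazurP.HeckeSlope

/-!
# Special places of `X₀(N)` in characteristic three
-/

set_option autoImplicit false

open AlgebraicCurve IntermediateField Module ModularCurve

namespace Fermat.Agent.MazG

/-- A place of `X₀(N)` in characteristic `3` over `j = 0` is special if the order of `j` is not
divisible by `3`. -/
def Special3 {k : Type*} [Field k] {N : ℕ} [NeZero N]
    (Q : Place k (modularFunctionFieldFullC k N)) : Prop :=
  0 < Q.ord (Fermat.Agent.RedQ.xj k N) ∧ ¬ (3 : ℤ) ∣ Q.ord (Fermat.Agent.RedQ.xj k N)

end Fermat.Agent.MazG
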