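import Fermat.Agent.MazG.Red3
import Fermat.Agent.MazG.Ell3
import Fermat.Agent.MazG.Sp3Def

/-!
# The two degeneracy maps agree at the special places in characteristic three
-/

set_option autoImplicit false
set_option linter.unusedSectionVars false
set_option linter.style.haveILetI false
set_option linter.unusedVariables false

noncomputable section

open AlgebraicCurve IntermediateField Module ModularCurve

namespace Fermat.Agent.MazG

open Fermat.Agent.FF Fermat.Agent.Red Fermat.Agent.QVal Fermat.Agent.QComp Fermat.Agent.JZ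
  Fermat.Agent.MazurP

local notation "Qb" => AlgebraicClosure ℚ

variable {k : Type*} [Field k] {A : ValuationSubring Qb} {π : A →+* k} {M ℓ : ℕ} [NeZero M]
  [NeZero ℓ] [hlf : Fact ℓ.Prime]

/-- **KEY**: in characteristic three the two degeneracy maps agree at the special places. -/
theorem key3 (hA : A.LiesOverPrime 3) (hπ : ∀ a : A, π a = 0 ↔ ¬ IsUnit a)
    (hs : Function.Surjective π) (hM : ¬ 3 ∣ M) (hℓ : ¬ ℓ ∣ M * 3)
    (hα : (alphaC k M ℓ).toRingHom.IsIntegral) (hβ : (betaC k M ℓ).toRingHom.IsIntegral)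
    (w : Place k (modularFunctionFieldFullC k (M * ℓ))) (hw : Special3 w) :
    w.restrictAlong (alphaC k M ℓ) hα = w.restrictAlong (betaC k M ℓ) hβ := by
  haveI : Fact (Nat.Prime 3) := ⟨Nat.prime_three⟩
  have hMℓ : ¬ 3 ∣ M * ℓ := by
    intro hd
    rcases Nat.prime_three.dvd_mul.1 hd with h1 | h1
    · exact hM h1
    · rw [Nat.prime_dvd_prime_iff_eq Nat.prime_three hlf.out] at h1
      exact hℓ (h1 ▸ dvd_mul_left _ _)
  haveI := isFnField_bar M
  haveI := isFnField_bar (M * ℓ)
  obtain ⟨hα', hβ', -⟩ := JZ.heckeInputsAlong JZ.modularFieldInputsBar (FF.normInputs _) M ℓ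
  exact key_of_char_zero hA hπ hs hM hMℓ 3 hα' hβ'
    (fun P h0 h3 => restrictAlong_alpha_eq_beta P h0 h3 hα' hβ') hα hβ w hw.1.le hw.2

end Fermat.Agent.MazG
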