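import Fermat.Agent.MazG.Sp3Def
import Fermat.Agent.MazurS.HeckeW

/-!
# Orders at special places in characteristic three and Hecke operators
-/

set_option autoImplicit false
set_option linter.unusedSectionVars false
set_option linter.style.haveILetI false
set_option linter.unusedVariables false

noncomputable section

open AlgebraicCurve IntermediateField Module ModularCurve

namespace Fermat.Agent.MazG

open Fermat.Agent.FF Fermat.Agent.Red Fermat.Agent.QVal Fermat.Agent.QComp Fermat.Agent.JZ
  Fermat.Agent.MazurP Fermat.Agent.MazurQ Fermat.Agent.MazurS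

local notation "Qb" => AlgebraicClosure ℚ

theorem eisenstein4_map_three {k : Type*} [Field k] [CharP k 3] :
    eisenstein4.map (Int.castRingHom k) = 1 := by
  have h3 : (240 : k) = 0 := by
    have h : ((3 : ℕ) : k) = 0 := CharP.cast_eq_zero k 3
    have e : (240 : k) = ((3 : ℕ) : k) * 80 := by push_cast; norm_num
    rw [e, h, zero_mul]
  ext n
  rw [PowerSeries.coeff_map, eisenstein4, PowerSeries.coeff_mk, PowerSeries.coeff_one]
  split_ifs with h
  · simp
  · rw [map_mul]
    have e : (Int.castRingHom k) 240 = 0 := by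
      rw [eq_intCast]
      exact_mod_cast h3
    rw [e, zero_mul]

/-- in characteristic three, `j Δ = 1` -/
theorem coe_xj_mul_deltaC {k : Type*} [Field k] [CharP k 3] (M : ℕ) [NeZero M] :
    (RedQ.xj k M : LaurentSeries k) * Igusa.deltaC k = 1 := by
  rw [RedQ.coe_xj, Igusa.jqModC_mul_deltaC, eisenstein4_map_three, one_pow, map_one]

theorem coe_xj_sq_mul {k : Type*} [Field k] [CharP k 3] (M : ℕ) [NeZero M] :
    ((RedQ.xj k M ^ 2 : modularFunctionFieldFullC k M) : LaurentSeries k) *
      (Igusa.deltaC k) ^ (3 - 1) = 1 := by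
  change (RedQ.xj k M : LaurentSeries k) ^ 2 * (Igusa.deltaC k) ^ (3 - 1) = 1
  rw [← mul_pow, coe_xj_mul_deltaC, one_pow]

section Level

variable {k : Type*} [Field k] {A : ValuationSubring Qb} {π : A →+* k} {M l : ℕ} [NeZero M]
  [NeZero l] [hlf : Fact l.Prime]
  (hA : A.LiesOverPrime 3) (hπ : ∀ a : A, π a = 0 ↔ ¬ IsUnit a)
  (hs : Function.Surjective π)

include hA hπ hs in
/-- the orders of `j(τ)` and `j(lτ)` agree at the noncuspidal places -/
theorem ord_betaC_xj (hM : ¬ 3 ∣ M) (hMl : ¬ 3 ∣ M * l)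
    (w : Place k (modularFunctionFieldFullC k (M * l)))
    (hw : 0 ≤ w.ord (RedQ.xj k (M * l))) :
    w.ord (betaC k M l (RedQ.xj k M)) = w.ord (RedQ.xj k (M * l)) := by
  haveI : Fact (Nat.Prime 3) := ⟨Nat.prime_three⟩
  haveI := charP_of_liesOverPrime (k := k) hA hπ
  have h1 := ord_alpha_hasse hA hπ hs hMl (coe_xj_sq_mul (k := k) M) w hw
  have e1 : alphaC k M l (RedQ.xj k M) = RedQ.xj k (M * l) := Subtype.ext (coe_alphaC _ _ _ _)
  rw [map_pow, map_pow, ord_pow, ord_pow, e1] at h1
  push_cast at h1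
  omega

set_option maxHeartbeats 1000000 in
include hA hπ hs in
/-- **Orders at the special places and Hecke operators.** -/
theorem dvd_ord_of_key (hM : ¬ 3 ∣ M) {b : modularFunctionFieldFullC k M} (hb : b ≠ 0)
    (hns : ∀ Q : Place k (modularFunctionFieldFullC k M), ¬ Special3 Q → (3 : ℤ) ∣ Q.ord b)
    (hl : ¬ l ∣ M * 3)
    (hα : (alphaC k M l).toRingHom.IsIntegral) (hβ : (betaC k M l).toRingHom.IsIntegral)
    (KEY : ∀ w : Place k (modularFunctionFieldFullC k (M * l)), Special3 w →
      w.restrictAlong (alphaC k M l) hα = w.restrictAlong (betaC k M l) hβ)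
    {a : ℤ} (ha : ¬ (3 : ℤ) ∣ a - (l + 1)) {e : modularFunctionFieldFullC k M} (he : e ≠ 0)
    (hT : b ^ a = TlC k M l b * e ^ 3) (Q : Place k (modularFunctionFieldFullC k M)) :
    (3 : ℤ) ∣ Q.ord b := by
  haveI : Fact (Nat.Prime 3) := ⟨Nat.prime_three⟩
  haveI := charP_of_liesOverPrime (k := k) hA hπ
  haveI : IsAlgClosed k := isAlgClosed_of_surjective hs
  have hlM : ¬ l ∣ M := fun h => hl (h.mul_right 3)
  have hMl : ¬ 3 ∣ M * l := by
    intro h
    rcases (Nat.prime_three).dvd_mul.1 h with h | h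
    · exact hM h
    · rw [Nat.prime_dvd_prime_iff_eq Nat.prime_three hlf.out] at h
      exact hl (h ▸ dvd_mul_left _ _)
  haveI := isFnField_fullC (k := k) M 3 hM
  haveI := isFnField_fullC (k := k) (M * l) 3 hMl
  haveI : HasPrincipalDivisors k (modularFunctionFieldFullC k M) := RR.hasPrincipalDivisors k _
  haveI : HasPrincipalDivisors k (modularFunctionFieldFullC k (M * l)) :=
    RR.hasPrincipalDivisors k _
  by_cases hQ : Special3 Q
  swap
  · exact hns Q hQ
  have h3 : Prime (3 : ℤ) := Int.prime_three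
  have e1 : alphaC k M l (RedQ.xj k M) = RedQ.xj k (M * l) := Subtype.ext (coe_alphaC _ _ _ _)
  have key : ∀ w : Place k (modularFunctionFieldFullC k (M * l)),
      w.restrictAlong (alphaC k M l) hα = Q →
      (3 : ℤ) ∣ w.ord (betaC k M l b) - w.ord (alphaC k M l b) := by
    intro w hw
    have hpα : (0 : ℤ) < w.ramificationIndexAlong (alphaC k M l) := by
      exact_mod_cast ramPos _ hα w
    have h1 : w.ord (RedQ.xj k (M * l)) =
        w.ramificationIndexAlong (alphaC k M l) * Q.ord (RedQ.xj k M) := by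
      rw [← e1, Place.ord_restrictAlong _ hα, hw]
    have h2 : 0 < w.ord (RedQ.xj k (M * l)) := by
      rw [h1]; exact mul_pos hpα hQ.1
    have h4 := ord_betaC_xj hA hπ hs hM hMl w h2.le
    rw [Place.ord_restrictAlong _ hβ] at h4
    by_cases hws : Special3 w
    · -- both images are the same
      have h5 := KEY w hws
      rw [hw] at h5
      rw [← h5, h1] at h4
      have h6 := mul_right_cancel₀ hQ.1.ne' h4
      rw [Place.ord_restrictAlong _ hβ, Place.ord_restrictAlong _ hα, hw, ← h5, h6, sub_self]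
      exact dvd_zero _
    · have h5 : (3 : ℤ) ∣ w.ord (RedQ.xj k (M * l)) := by
        by_contra h6
        exact hws ⟨h2, h6⟩
      refine dvd_sub ?_ ?_
      · rw [Place.ord_restrictAlong _ hβ]
        by_cases hQ' : Special3 (w.restrictAlong (betaC k M l) hβ)
        · rw [← h4] at h5
          exact ((h3.dvd_or_dvd h5).resolve_right hQ'.2).mul_right _
        · exact (hns _ hQ').mul_left _
      · rw [Place.ord_restrictAlong _ hα, hw]
        rw [h1] at h5
        exact ((h3.dvd_or_dvd h5).resolve_right hQ.2).mul_right _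
  have hβb : betaC k M l b ≠ 0 := (map_ne_zero (betaC k M l)).2 hb
  have h7 := dvd_ord_normAlong_sub' (alphaC k M l) hα (JZ.finiteAlong _)
    (normFormulaAlong (alphaC k M l) (JZ.finiteAlong _) (isSeparable_alphaC k M l hMl))
    hβb ((map_ne_zero (alphaC k M l)).2 hb) 3 Q key
  rw [normAlong_self, finrank_alphaC hA hπ hs hM hMl hlM, ord_pow] at h7
  have hT0 : TlC k M l b ≠ 0 := by
    intro h0
    rw [h0, zero_mul] at hT
    exact zpow_ne_zero _ hb hT
  have h8 : a * Q.ord b = Q.ord (TlC k M l b) + 3 * Q.ord e := by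
    have := congrArg Q.ord hT
    rw [Place.ord_zpow, Q.ord_mul hT0 (pow_ne_zero _ he), ord_pow] at this
    exact_mod_cast this
  have h9 : (3 : ℤ) ∣ Q.ord (TlC k M l b) - (l + 1) * Q.ord b := by
    have : (3 : ℤ) ∣ Q.ord (TlC k M l b) - ((l + 1 : ℕ) : ℤ) * Q.ord b := h7
    push_cast at this
    exact this
  have h10 : (3 : ℤ) ∣ (a - (l + 1)) * Q.ord b := by
    have e2 : (a - (l + 1)) * Q.ord b =
        (Q.ord (TlC k M l b) - (l + 1) * Q.ord b) + 3 * Q.ord e := by
      linear_combination h8
    rw [e2]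
    exact dvd_add h9 (dvd_mul_right _ _)
  exact (h3.dvd_or_dvd h10).resolve_left ha

end Level

end Fermat.Agent.MazG
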