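import Fermat.Agent.MazG.Node3
import Fermat.Agent.MazG.Special3
import Fermat.Agent.MazG.Key3
import Fermat.Agent.MazurS.ToricMain

set_option autoImplicit false
set_option linter.unusedSectionVars false
set_option linter.style.haveILetI false
set_option linter.unusedVariables false

/-!
# Toric classes from vanishing slopes, every odd residue characteristic
-/

noncomputable section

open AlgebraicCurve IntermediateField Module ModularCurve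

namespace Fermat.Agent.MazG

open Fermat.Agent.FF Fermat.Agent.Red Fermat.Agent.QVal Fermat.Agent.QComp Fermat.Agent.JZ
  Fermat.Agent.MazurP Fermat.Agent.MazurQ Fermat.Agent.Node Fermat.Agent.ESh Fermat.Agent.MazurS

local notation "Qb" => AlgebraicClosure ℚ
local notation "Γℚ" => (AlgebraicClosure ℚ ≃ₐ[ℚ] AlgebraicClosure ℚ)

section Three

variable {k : Type*} [Field k] {A : ValuationSubring Qb} {π : A →+* k} {M₀ M : ℕ} [NeZero M₀]
  [NeZero M] [h3F : Fact (Nat.Prime 3)]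

/-- orders at the places which are not special -/
theorem dvd_of_not_special (hA : A.LiesOverPrime 3) (hπ : ∀ a : A, π a = 0 ↔ ¬ IsUnit a)
    (hs : Function.Surjective π) (hM₀ : ¬ 3 ∣ M₀) (hM : ¬ 3 ∣ M)
    (hr : ∃ r : ℕ, r.Prime ∧ r ∣ M ∧ r % 12 = 11) (h : M₀ ∣ M)
    {b : modularFunctionFieldFullC k M₀}
    (hb : ∀ w : Place k (modularFunctionFieldFullC k M), (3 : ℤ) ∣ w.ord (inclK k h b))
    {Q : Place k (modularFunctionFieldFullC k M₀)} (hQ0 : 0 < Q.ord (RedQ.xj k M₀))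
    (hQ : ¬ Special3 Q) : (3 : ℤ) ∣ Q.ord b := by
  haveI := charP_of_liesOverPrime (k := k) hA hπ
  haveI : IsAlgClosed k := isAlgClosed_of_surjective hs
  haveI : PerfectRing k 3 := PerfectField.toPerfectRing 3
  haveI := isFnField_fullC (k := k) M 3 hM
  haveI := isFnField_fullC (k := k) M₀ 3 hM₀
  haveI := (isCoord' hA hπ hs hM).finiteDimensionalk
  haveI := RedQ.isSeparable_charP M k 3 hM
  have h3 : (3 : ℤ) ∣ Q.ord (RedQ.xj k M₀) := by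
    by_contra h3
    exact hQ ⟨hQ0, h3⟩
  have hi : (inclK k h).toRingHom.IsIntegral := JZ.isIntegralAlong _
  obtain ⟨w, hw⟩ := exists_restrictAlong (inclK k h) hi Q
  have hpos : (0 : ℤ) < w.ramificationIndexAlong (inclK k h) := by
    exact_mod_cast ramPos _ hi w
  set e : ℤ := ((w.ramificationIndexAlong (inclK k h) : ℕ) : ℤ) with he
  have h1 : ∀ f, w.ord (inclK k h f) = e * Q.ord f := by
    intro f
    rw [Place.ord_restrictAlong _ hi, hw]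
  have h2 : 0 < w.ord (RedQ.xj k M) := by
    rw [← inclK_xj h, h1]
    exact mul_pos hpos hQ0
  have h4 : w.ord (RedQ.xj k M ^ 2) = 12 :=
    Node.ord_hasse_eq hr hA hπ hs hM h2.le (coe_xj_sq_mul (k := k) M) (by
      rw [ord_pow]; exact mul_pos (by norm_num) h2)
  rw [ord_pow, ← inclK_xj h, h1] at h4
  obtain ⟨c, hc⟩ := h3
  have h5 : e * c = 2 := by
    rw [hc] at h4
    push_cast at h4
    have h5 : 6 * (e * c) = 12 := by rw [← h4]; ring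
    omega
  have h6 := hb w
  rw [h1] at h6
  have h7 : (3 : ℤ) ∣ c * (e * Q.ord b) := h6.mul_left c
  have h8 : c * (e * Q.ord b) = 2 * Q.ord b := by rw [← mul_assoc, mul_comm c e, h5]
  rw [h8] at h7
  omega

set_option maxHeartbeats 1000000 in
/-- **Vanishing of the slopes** in residue characteristic three. -/
theorem dvd_ord_hasRed3 (hA : A.LiesOverPrime 3) (hπ : ∀ a : A, π a = 0 ↔ ¬ IsUnit a)
    (hs : Function.Surjective π) (hM₀ : ¬ 3 ∣ M₀) (hM : ¬ 3 ∣ M)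
    (hr : ∃ r : ℕ, r.Prime ∧ r ∣ M ∧ r % 12 = 11) (h : M₀ ∣ M) {x : JZero (M₀ * 3)}
    {b₁ b₂ : modularFunctionFieldFullC k M₀} (hred : HasRed hA hπ hs hM₀ 3 x b₁ b₂)
    (hdvd : ∀ w : Place k (modularFunctionFieldFullC k M),
      (3 : ℤ) ∣ w.ord (inclK k h b₁) ∧ (3 : ℤ) ∣ w.ord (inclK k h b₂))
    {ℓ : ℕ} [NeZero ℓ] [hlf : Fact ℓ.Prime] (hℓ : ¬ ℓ ∣ M₀ * 3) {a : ℤ}
    (ha : ¬ (3 : ℤ) ∣ a - (ℓ + 1)) (hTx : heckeOperatorAlong Qb (M₀ * 3) ℓ x = a • x)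
    (Q : Place k (modularFunctionFieldFullC k M₀)) : (3 : ℤ) ∣ Q.ord b₁ ∧ (3 : ℤ) ∣ Q.ord b₂ := by
  haveI := charP_of_liesOverPrime (k := k) hA hπ
  haveI : IsAlgClosed k := isAlgClosed_of_surjective hs
  haveI : PerfectRing k 3 := PerfectField.toPerfectRing 3
  haveI := isFnField_fullC (k := k) M₀ 3 hM₀
  haveI := (isCoord' hA hπ hs hM₀).finiteDimensionalk
  haveI := RedQ.isSeparable_charP M₀ k 3 hM₀
  have hMℓ : ¬ 3 ∣ M₀ * ℓ := by
    intro hd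
    rcases h3F.out.dvd_mul.1 hd with h1 | h1
    · exact hM₀ h1
    · rw [Nat.prime_dvd_prime_iff_eq h3F.out (Fact.out : ℓ.Prime)] at h1
      exact hℓ (h1 ▸ dvd_mul_left _ _)
  haveI := isFnField_fullC (k := k) (M₀ * ℓ) 3 hMℓ
  have hα : (alphaC k M₀ ℓ).toRingHom.IsIntegral := JZ.isIntegralAlong _
  have hβ : (betaC k M₀ ℓ).toRingHom.IsIntegral := JZ.isIntegralAlong _
  have h1 := hred.hecke hMℓ
  rw [hTx] at h1
  obtain ⟨⟨e₁, he₁, h2⟩, e₂, he₂, h3⟩ := h1.unique h3F.out.ne_zero (HasRed.zsmul hred a)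
  have hns : ∀ Q : Place k (modularFunctionFieldFullC k M₀), ¬ Special3 Q →
      (3 : ℤ) ∣ Q.ord b₁ ∧ (3 : ℤ) ∣ Q.ord b₂ := by
    intro Q hQ
    by_cases hQ0 : 0 < Q.ord (RedQ.xj k M₀)
    · exact ⟨dvd_of_not_special hA hπ hs hM₀ hM hr h (fun w => (hdvd w).1) hQ0 hQ,
        dvd_of_not_special hA hπ hs hM₀ hM hr h (fun w => (hdvd w).2) hQ0 hQ⟩
    · refine dvd_of_not_node hred (coe_xj_sq_mul (k := k) M₀) fun hQ' => hQ0 ?_
      have h4 := hQ'.2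
      rw [ord_pow] at h4
      push_cast at h4
      omega
  have KEY : ∀ w : Place k (modularFunctionFieldFullC k (M₀ * ℓ)), Special3 w →
      w.restrictAlong (alphaC k M₀ ℓ) hα = w.restrictAlong (betaC k M₀ ℓ) hβ := fun w hw =>
    key3 hA hπ hs hM₀ hℓ hα hβ w hw
  exact ⟨dvd_ord_of_key hA hπ hs hM₀ hred.ne1 (fun Q hQ => (hns Q hQ).1) hℓ hα hβ KEY ha he₁ h2 Q,
    dvd_ord_of_key hA hπ hs hM₀ hred.ne2 (fun Q hQ => (hns Q hQ).2) hℓ hα hβ KEY ha he₂ h3 Q⟩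

end Three

section Level

variable {k : Type*} [Field k] {A : ValuationSubring Qb} {π : A →+* k} {M q : ℕ}
  [NeZero M] [NeZero q] [hqf : Fact q.Prime]

set_option maxHeartbeats 1000000 in
/-- **Toric classes**, every odd residue characteristic. -/
theorem toric_of_sys_odd (hA : A.LiesOverPrime q) (hπ : ∀ a : A, π a = 0 ↔ ¬ IsUnit a)
    (hs : Function.Surjective π) (hM : ¬ q ∣ M) (hq3 : 3 ≤ q) {U : Subgroup Γℚ}
    (hUI : U ≤ A.inertiaSubgroupIn ℚ)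
    (hfin : (U.subgroupOf (A.inertiaSubgroupIn ℚ)).FiniteIndex)
    (hidx : (U.subgroupOf (A.inertiaSubgroupIn ℚ)).index ≤ q * (q - 1))
    (hPEU : ∀ t : A, t ≠ 0 → MazurP.AU A ((t : Qb) ^ (q - 1) / q) → MazurP.PEU A q U t)
    {x : JZero (M * q)} (hx : q • x = 0) (hxU : ∀ σ ∈ U, σ • x = x)
    (hα : trA M q x = 0) (hβ : trB M q x = 0) {B : ℕ} (hB : M * q ∣ B) (a : Nat.Primes → ℤ)
    (hT : ∀ l : Nat.Primes, ¬ (l : ℕ) ∣ B → heckeOperatorBar (M * q) l x = a l • x)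
    {l₀ : Nat.Primes} (hl₀ : ¬ (l₀ : ℕ) ∣ B) (hl₀a : ¬ (q : ℤ) ∣ a l₀ - (l₀ + 1))
    {P : MazurQ.GPoly B} (hP : MazurQ.evS B M P = 0)
    (hPa : ¬ (q : ℤ) ∣ (MvPolynomial.aeval
      (fun l : {ℓ : Nat.Primes // ¬ (ℓ : ℕ) ∣ B} => a l.1) P : ℤ)) :
    IsToric hA hπ hs hM q x := by
  by_cases hq5 : 5 ≤ q
  · exact toric_of_sys hA hπ hs hM hq5 hUI hfin hidx hPEU hx hxU hα hβ hB a hT hl₀ hl₀a hP hPa
  have hq : q = 3 := by
    have h4 : q ≠ 4 := by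
      rintro rfl
      exact absurd hqf.out (by decide)
    omega
  subst hq
  haveI := charP_of_liesOverPrime (k := k) hA hπ
  haveI : IsAlgClosed k := isAlgClosed_of_surjective hs
  haveI : PerfectRing k 3 := PerfectField.toPerfectRing 3
  have hMB : M ∣ B := (dvd_mul_right M 3).trans hB
  have hqB : 3 ∣ B := (dvd_mul_left 3 M).trans hB
  -- the rigid level
  obtain ⟨r, hrgt, hr, hr12⟩ : ∃ r : ℕ, max 3 (l₀ : ℕ) < r ∧ r.Prime ∧ r % 12 = 11 := by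
    obtain ⟨r, hr1, hr2, hr3⟩ := Nat.forall_exists_prime_gt_and_eq_mod
      (q := 12) (a := (11 : ZMod 12)) (by decide) (max 3 (l₀ : ℕ))
    refine ⟨r, hr1, hr2, ?_⟩
    have h4 : ((r : ℕ) : ZMod 12) = ((11 : ℕ) : ZMod 12) := by rw [hr3]; rfl
    rw [ZMod.natCast_eq_natCast_iff'] at h4
    simpa using h4
  haveI : NeZero r := ⟨hr.ne_zero⟩
  haveI : NeZero (M * r) := ⟨mul_ne_zero (NeZero.ne M) hr.ne_zero⟩
  have hr3 : 3 < r := (le_max_left _ _).trans_lt hrgt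
  have hrl : (l₀ : ℕ) < r := (le_max_right _ _).trans_lt hrgt
  have hMr : ¬ 3 ∣ M * r := by
    intro hd
    rcases hqf.out.dvd_mul.1 hd with h1 | h1
    · exact hM h1
    · rw [Nat.prime_dvd_prime_iff_eq hqf.out hr] at h1
      omega
  haveI := isFnField_fullC (k := k) (M * r) 3 hMr
  haveI := (isCoord' hA hπ hs hMr).finiteDimensionalk
  haveI := RedQ.isSeparable_charP (M * r) k 3 hMr
  obtain ⟨t, ht0, hπt, htq, htd, htu⟩ := MazurP.exists_t hA hπ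
  obtain ⟨b₁, b₂, hred, hadd, hc⟩ := slopes_const (M₀ := M) (M := M * r) (hA := hA) (hπ := hπ)
    (hs := hs) (hM₀ := hM) (hM := hMr) (dvd_mul_right M r) ⟨r, hr, dvd_mul_left r M, hr12⟩ ht0 hπt
    htq htd htu hUI hfin hidx (hPEU t ht0 htu) hx hxU hα hβ
  haveI : NeZero (l₀ : ℕ) := ⟨l₀.2.ne_zero⟩
  haveI : Fact (l₀ : ℕ).Prime := ⟨l₀.2⟩
  have hl₀M : ¬ (l₀ : ℕ) ∣ M * 3 := fun h => hl₀ (h.trans hB)
  have hl₀r : ¬ (l₀ : ℕ) ∣ M * r * 3 := by
    intro hd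
    rcases l₀.2.dvd_mul.1 hd with h1 | h1
    · rcases l₀.2.dvd_mul.1 h1 with h2 | h2
      · exact hl₀M (h2.mul_right 3)
      · rw [Nat.prime_dvd_prime_iff_eq l₀.2 hr] at h2
        omega
    · exact hl₀M (h1.mul_left M)
  have hdvd' := dvd_ord_inclK (hA := hA) (hπ := hπ) (hs := hs) (hM := hMr)
    ⟨r, hr, dvd_mul_left r M, hr12⟩ (dvd_mul_right M r)
    hred hadd hc (ℓ := (l₀ : ℕ)) hl₀r hl₀a (hT l₀ hl₀)
  have hdvd := dvd_ord_hasRed3 hA hπ hs hM hMr ⟨r, hr, dvd_mul_left r M, hr12⟩ (dvd_mul_right M r)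
    hred hdvd' (ℓ := (l₀ : ℕ)) hl₀M hl₀a (hT l₀ hl₀)
  have hTl : ∀ (l : ℕ) [NeZero l] (hl : l.Prime), ¬ l ∣ B →
      (∃ e, e ≠ 0 ∧ b₁ ^ (a ⟨l, hl⟩) = TlC k M l b₁ * e ^ 3) ∧
      ∃ e, e ≠ 0 ∧ b₂ ^ (a ⟨l, hl⟩) = TlC k M l b₂ * e ^ 3 := by
    intro l _ hl hlB
    haveI : Fact l.Prime := ⟨hl⟩
    have hMl : ¬ 3 ∣ M * l := by
      intro hd
      rcases hqf.out.dvd_mul.1 hd with h1 | h1
      · exact hM h1
      · rw [Nat.prime_dvd_prime_iff_eq hqf.out hl] at h1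
        exact hlB (h1 ▸ hqB)
    have h1 := hred.hecke hMl
    have h2 : heckeOperatorAlong Qb (M * 3) l x = a ⟨l, hl⟩ • x := hT ⟨l, hl⟩ hlB
    rw [h2] at h1
    exact h1.unique hqf.out.ne_zero (HasRed.zsmul hred (a ⟨l, hl⟩))
  obtain ⟨z₁, hz₁⟩ := exists_root hA hπ hs hM hMB hqB a hP hPa hred.ne1
    (fun Q => (hdvd Q).1) (fun l _ hl hlB => (hTl l hl hlB).1)
  obtain ⟨z₂, hz₂⟩ := exists_root hA hπ hs hM hMB hqB a hP hPa hred.ne2
    (fun Q => (hdvd Q).2) (fun l _ hl hlB => (hTl l hl hlB).2)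
  exact hred.isToric hz₁ hz₂

end Level

end Fermat.Agent.MazG
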