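import Fermat.Agent.MazurS.Core
import Fermat.Agent.MazG.GroupG
import Fermat.Agent.MazG.ToricOdd

/-!
# Mazur's principle at `p`: the core for arbitrary odd `p`, arbitrary tame level and arbitrary `W`
-/

set_option autoImplicit false
set_option linter.style.haveILetI false
set_option linter.unusedSectionVars false

noncomputable section

open AlgebraicCurve ModularCurve CuspForm ModularFormClass WeierstrassCurve CongruenceSubgroup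
open Fermat.Agent.MazurQ Fermat.Agent.QComp Fermat.Agent.ECRep Fermat.Agent.OrdP Fermat.Agent.Red
  Fermat.Agent.FF Fermat.Agent.MazurS

namespace Fermat.Agent.MazG

local notation "ℤbar" => integralClosure ℤ ℂ
local notation "Γℚ" => (AlgebraicClosure ℚ ≃ₐ[ℚ] AlgebraicClosure ℚ)
local notation "Qb" => AlgebraicClosure ℚ

/-- **Mazur's principle at `p`**: the hypothesis on the inertia group at `p` is that
`W[p]` has an adapted basis `(* *; 0 1)` and that its field of definition over the inertia field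
is generated by a root of a unit. -/
theorem coreG {p M : ℕ} [hp : Fact p.Prime] [hM0 : NeZero M] [hMp0 : NeZero (M * p)]
    {W : WeierstrassCurve ℤ} (hp2 : p ≠ 2) (hpM : ¬ p ∣ M) (hΔ : W.Δ ≠ 0)
    (hirr : W.ModRepIsIrreducible p) {A : ValuationSubring Qb} (hA : A.LiesOverPrime p)
    (hord : OrdBasis W p hΔ A)
    (hpeu : ∀ t : A, t ≠ 0 → MazurP.AU A ((t : Qb) ^ (p - 1) / p) →
      MazurP.PEU A p (inertiaU W p A) t)
    (S : Set ℕ) (hSfin : S.Finite) (hpS : p ∈ S)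
    (hS : ∀ q : ℕ, q.Prime → (q : ℤ) ∣ W.Δ → q ∈ S) {x₀ : JZero (M * p)} (hx₀ : x₀ ≠ 0)
    (hpx₀ : p • x₀ = 0)
    (hT₀ : ∀ (ℓ : ℕ) (hℓ : ℓ.Prime), ¬ ℓ ∣ M * p → ℓ ∉ S →
        heckeOperatorBar (M * p) ⟨ℓ, hℓ⟩ x₀ = W.apOfModel ℓ • x₀) :
    ∃ (f : CuspForm (Gamma0 M) 2) (𝔪 : Ideal (integralClosure ℤ ℂ)),
      f.IsNormalizedEigenform ∧ 𝔪.IsMaximal ∧ (p : integralClosure ℤ ℂ) ∈ 𝔪 ∧
      ∃ S' : Finset ℕ, ∀ ℓ : ℕ, ℓ.Prime → ℓ ∉ S' → ∃ a : integralClosure ℤ ℂ,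
        (a : ℂ) = qCoeff f ℓ ∧ a - ((W.apOfModel ℓ : ℤ) : integralClosure ℤ ℂ) ∈ 𝔪 := by
  classical
  lift S to Finset ℕ using hSfin
  have hpp := hp.out
  haveI : NeZero p := ⟨hpp.ne_zero⟩
  obtain ⟨B, hBdef⟩ : ∃ B, B = M * p * ∏ q ∈ S.filter Nat.Prime, q := ⟨_, rfl⟩
  have hB0 : B ≠ 0 := by
    rw [hBdef]
    refine mul_ne_zero (NeZero.ne _) (Finset.prod_ne_zero_iff.2 fun q hq => ?_)
    exact (Finset.mem_filter.1 hq).2.ne_zero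
  haveI : NeZero B := ⟨hB0⟩
  have hNB : M * p ∣ B := hBdef ▸ dvd_mul_right _ _
  have hMB : M ∣ B := (dvd_mul_right M p).trans hNB
  have hpB : p ∣ B := (dvd_mul_left p M).trans hNB
  have hSB : ∀ ℓ : ℕ, ℓ.Prime → ¬ ℓ ∣ B → ℓ ∉ S := fun ℓ hℓ h1 h2 => h1 (by
    rw [hBdef]
    exact (Finset.dvd_prod_of_mem _ (Finset.mem_filter.2 ⟨h2, hℓ⟩)).mul_left _)
  have hgood : ∀ ℓ : ℕ, ℓ.Prime → ¬ ℓ ∣ B → W.IsGoodPrimeFor ℓ := fun ℓ hℓ h1 h2 =>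
    hSB ℓ hℓ h1 (hS ℓ hℓ h2)
  have hneB : ∀ ℓ : ℕ, ℓ.Prime → ¬ ℓ ∣ B → ℓ ≠ p := fun ℓ hℓ h1 h2 => h1 (h2 ▸ hpB)
  rcases exists_form_or_kill (B := B) (p := p) (fun ℓ => W.apOfModel ℓ) (M := M) with h | h
  · obtain ⟨g, 𝔪, hg, h𝔪, hp𝔪, h⟩ := h
    refine ⟨g, 𝔪, hg, h𝔪, hp𝔪, B.primeFactors, fun ℓ hℓ hℓB => ?_⟩
    have h1 : ¬ ℓ ∣ B := fun hd => hℓB (Nat.mem_primeFactors.2 ⟨hℓ, hd, hB0⟩)
    exact h ⟨⟨ℓ, hℓ⟩, h1⟩
  exfalso
  obtain ⟨Q, hQ, hQb⟩ := h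
  have hπ := residue_zero_iff A
  have hs : Function.Surjective (IsLocalRing.residue A) := IsLocalRing.residue_surjective
  have hJ : JData B p (tJ (M * p)) := jData_of_dvd hNB
  have hsys₀ : IsSys W p B (tJ (M * p)) x₀ := fun ℓ hℓ h1 _ _ =>
    hT₀ ℓ hℓ (fun h => h1 (h.trans hNB)) (hSB ℓ hℓ h1)
  have hirr' := isIrreducible_of_modRep W (p := p) hΔ hirr
  haveI : (toRat W).IsElliptic := ⟨isUnit_iff_ne_zero.2 (toRat_Δ_ne_zero hΔ)⟩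
  have hirrA : Ihara.IrrAdd (toRat W) p := Ihara.irrAdd_of_irreducible _ hirr
  have hp3 : 3 ≤ p := lt_of_le_of_ne hpp.two_le (Ne.symm hp2)
  obtain ⟨l₀, hl₀, hl₀B, -, -, hl₀a⟩ := Ihara.exists_prime_ap W hΔ hp2 hirrA one_ne_zero
    B.primeFactors
  have hl₀B' : ¬ l₀ ∣ B := fun hd => hl₀B (Nat.mem_primeFactors.2 ⟨hl₀, hd, hB0⟩)
  -- the residual system
  have hsysT : ∀ {x : JZero (M * p)}, IsSys W p B (tJ (M * p)) x →
      ∀ ℓ : Nat.Primes, ¬ (ℓ : ℕ) ∣ B → heckeOperatorBar (M * p) ℓ x = W.apOfModel ℓ • x :=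
    fun h ℓ hℓ => h ℓ ℓ.2 hℓ (hneB ℓ ℓ.2 hℓ) (hgood ℓ ℓ.2 hℓ)
  have htrA : ∀ {x : JZero (M * p)}, p • x = 0 → IsSys W p B (tJ (M * p)) x →
      trA M p x = 0 := by
    intro x hx hsx
    refine eq_zero_of_kill hMB hQ hQb (by rw [← map_nsmul, hx, map_zero]) fun ℓ => ?_
    rw [← trA_hecke M p hpp ℓ.1 (hneB _ ℓ.1.2 ℓ.2), hsysT hsx ℓ.1 ℓ.2, map_zsmul]
  have htrB : ∀ {x : JZero (M * p)}, p • x = 0 → IsSys W p B (tJ (M * p)) x →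
      trB M p x = 0 := by
    intro x hx hsx
    refine eq_zero_of_kill hMB hQ hQb (by rw [← map_nsmul, hx, map_zero]) fun ℓ => ?_
    rw [← trB_hecke M p hpp ℓ.1 (fun h => ℓ.2 (h.trans hNB)), hsysT hsx ℓ.1 ℓ.2, map_zsmul]
  obtain ⟨hfin, hidx⟩ := index_of_ordBasis hΔ hord
  have htoric : ∀ {x : JZero (M * p)}, x ∈ fixV W p B (tJ (M * p)) →
      IsToric hA hπ hs hpM p x := by
    intro x hx
    exact toric_of_sys_odd hA hπ hs hpM hp3 (U := inertiaU W p A) (fun σ hσ => hσ.1) hfin hidx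
      hpeu hx.1 (fun σ hσ => hx.2.2 σ hσ.2) (htrA hx.1 hx.2.1) (htrB hx.1 hx.2.1) hNB
      (fun ℓ => W.apOfModel ℓ) (hsysT hx.2.1) (l₀ := ⟨l₀, hl₀⟩) hl₀B' hl₀a hQ hQb
  obtain ⟨x, hx0, hpx, hsx, hfx⟩ := exists_fixed_vector W hΔ hJ hx₀ hpx₀ hsys₀
  haveI := Red.charP_of_liesOverPrime hA hπ
  haveI : IsAlgClosed (IsLocalRing.ResidueField A) := isAlgClosed_of_surjective hs
  haveI : PerfectRing (IsLocalRing.ResidueField A) p := PerfectField.toPerfectRing p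
  haveI := isFnField_fullC (k := IsLocalRing.ResidueField A) M p hpM
  refine MazG.false_of_inertia W hΔ hp2 hJ hirr' hA (fun σ hσ => trace_of_ordBasis W hΔ hord hσ)
    (fixV W p B (tJ (M * p))) ?_
    (fun σ x hx => fixV_stable hJ σ hx) (fun x hx => ⟨hx.1, hx.2.1⟩) ?_
  · intro h
    have h1 : x ∈ fixV W p B (tJ (M * p)) := ⟨hpx, hsx, hfx⟩
    rw [h] at h1
    exact hx0 h1
  · intro σ hσ a ha x hx
    refine inert2 (hA := hA) (hπ := hπ) (hs := hs) (hM := hpM) (p := p) (m := 1) hσ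
      (by rwa [pow_one]) ?_
    rw [pow_one]
    exact ⟨hx.1, htrA hx.1 hx.2.1, htrB hx.1 hx.2.1, htoric hx⟩

end Fermat.Agent.MazG
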