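import Fermat.Agent.MazG.PeuGen
import Fermat.Agent.Mazur.Base
import Fermat.Agent.PPart.Block

/-!
# The Kummer generator of an adapted flat representation over `𝔽_p`
-/

set_option autoImplicit false
set_option linter.style.haveILetI false

namespace Fermat.Agent.MazG

open IsLocalRing GaloisRep Fermat.Agent.CFT.Loc Fermat.Agent.CFT Fermat.Agent.Flat
  Fermat.Agent.DefRing Fermat.Agent.TW Fermat.Agent.LL Fermat.Agent.PPart Fermat.Agent.MazurP
  Fermat.Agent.Mazur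
open scoped Pointwise

local notation "Qb" => AlgebraicClosure ℚ
local notation "Γℚ" => (AlgebraicClosure ℚ ≃ₐ[ℚ] AlgebraicClosure ℚ)
local notation "M₂" => Matrix (Fin 2) (Fin 2)

variable {p : ℕ} [hp : Fact p.Prime]

/-- the element `σ_p` at the place `g • padicPlace p` acts trivially -/
theorem rg_sigma_eq_one {ρ : ResidualGaloisRep (ZMod p)} {r : Γℚ → M₂ (ZMod p)}
    (hr : RealizesRes ρ r) (hflat : (GaloisRepAdic.ofResidualGaloisRep ρ).IsFlatAt p)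
    (hdet : (GaloisRepAdic.ofResidualGaloisRep ρ).DetIsCyclotomic p) (g : Γℚ)
    (h10 : ∀ σ ∈ (g • padicPlace p).inertiaSubgroupIn ℚ, r σ 1 0 = 0)
    (h11 : ∀ σ ∈ (g • padicPlace p).inertiaSubgroupIn ℚ, r σ 1 1 = 1)
    {π : PadicAlgCl p} (hπ : IsPi π) {s₁ : GalLoc p} (hs : IsSigma π s₁) :
    r (rg p g s₁) = 1 := by
  have hR : Realizes (GaloisRepAdic.ofResidualGaloisRep ρ) r := Realizes.ofResidual hr
  have hinv : r g⁻¹ * r g = 1 := by rw [← hr.map_mul, inv_mul_cancel, hr.map_one]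
  have hinv' : r g * r g⁻¹ = 1 := by rw [← hr.map_mul, mul_inv_cancel, hr.map_one]
  have hunit : IsUnit (r g⁻¹).det := by
    refine IsUnit.of_mul_eq_one (r g).det ?_
    rw [← Matrix.det_mul, hinv, Matrix.det_one]
  have hPinv : (r g⁻¹)⁻¹ = r g := Matrix.inv_eq_left_inv hinv'
  have hR' := hR.conj (r g⁻¹) hunit
  have hrw : ∀ τ : GalLoc p, (r g⁻¹)⁻¹ * r (localGaloisToGlobal p τ) * r g⁻¹ = r (rg p g τ) := by
    intro τ
    rw [hPinv, rg_apply, hr.map_mul, hr.map_mul]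
  have hmemI : ∀ τ ∈ inertiaLoc p, rg p g τ ∈ (g • padicPlace p).inertiaSubgroupIn ℚ :=
    fun τ hτ => (rg_mem_inertia_iff p g τ).2 hτ
  haveI : Finite (ZMod p ⧸ (⊥ : Ideal (ZMod p))) :=
    Finite.of_surjective _ (Ideal.Quotient.mk_surjective (I := (⊥ : Ideal (ZMod p))))
  have key := sub_one_mem_of_flat' hR' hflat hdet hπ hs (⊥ : Ideal (ZMod p))
    (by rw [ZMod.natCast_self]; exact Ideal.zero_mem _)
    (fun σ hσ => by
      simp only [hrw]
      rw [h10 _ (hmemI σ hσ)]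
      exact Ideal.zero_mem _)
    (fun σ hσ => by
      simp only [hrw]
      rw [h11 _ (hmemI σ hσ), sub_self]
      exact Ideal.zero_mem _)
  simp only [hrw, Ideal.mem_bot] at key
  rw [← sub_eq_zero]
  ext i j
  exact key i j

/-- powers of a root of unity indexed by `ZMod p` -/
theorem exists_char {z : Qbˣ} (hz : IsPrimitiveRoot z p) :
    ∃ e : ZMod p → Qbˣ, e 0 = 1 ∧ (∀ x y, e (x + y) = e x * e y) ∧ (∀ x, e x = 1 → x = 0) ∧
      (∀ x, e x ^ p = 1) ∧ (∀ (a : ℕ) x, e ((a : ZMod p) * x) = e x ^ a) ∧ e 1 = z := by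
  haveI : NeZero p := ⟨hp.out.ne_zero⟩
  haveI : Fact (1 < p) := ⟨hp.out.one_lt⟩
  have hnat : ∀ n : ℕ, z ^ ((n : ZMod p)).val = z ^ n := by
    intro n
    rw [ZMod.val_natCast]
    conv_lhs => rw [hz.eq_orderOf]
    rw [pow_mod_orderOf]
  refine ⟨fun x => z ^ x.val, ?_, ?_, ?_, ?_, ?_, ?_⟩
  · simp
  · intro x y
    change z ^ (x + y).val = z ^ x.val * z ^ y.val
    rw [← pow_add, ← hnat (x.val + y.val)]
    push_cast
    rw [ZMod.natCast_zmod_val, ZMod.natCast_zmod_val]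
  · intro x hx
    have h1 := (hz.pow_eq_one_iff_dvd _).1 hx
    have h2 := ZMod.val_lt x
    exact (ZMod.val_eq_zero x).1 (Nat.eq_zero_of_dvd_of_lt h1 h2)
  · intro x
    change (z ^ x.val) ^ p = 1
    rw [← pow_mul, mul_comm, pow_mul, hz.pow_eq_one, one_pow]
  · intro a x
    change z ^ ((a : ZMod p) * x).val = (z ^ x.val) ^ a
    rw [← pow_mul, ← hnat (x.val * a)]
    push_cast
    rw [ZMod.natCast_zmod_val, mul_comm]
  · change z ^ (1 : ZMod p).val = z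
    rw [ZMod.val_one, pow_one]

/-- **The Kummer generator** -/
theorem exists_kummer {ρ : ResidualGaloisRep (ZMod p)} {r : Γℚ → M₂ (ZMod p)}
    (hr : RealizesRes ρ r) (hflat : (GaloisRepAdic.ofResidualGaloisRep ρ).IsFlatAt p)
    (hdet : (GaloisRepAdic.ofResidualGaloisRep ρ).DetIsCyclotomic p)
    {A : ValuationSubring Qb} (hA : A.LiesOverPrime p)
    (h10 : ∀ σ ∈ A.inertiaSubgroupIn ℚ, r σ 1 0 = 0)
    (h11 : ∀ σ ∈ A.inertiaSubgroupIn ℚ, r σ 1 1 = 1) :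
    ∃ w : Qb, A.valuation w = 1 ∧ (∀ σ ∈ A.inertiaSubgroupIn ℚ, σ (w ^ p) = w ^ p) ∧
      (∀ σ ∈ A.inertiaSubgroupIn ℚ, r σ = 1 → σ w = w) ∧
      (∀ σ ∈ A.inertiaSubgroupIn ℚ, (∀ ζ : Qb, ζ ^ p = 1 → σ ζ = ζ) → σ w = w → r σ = 1) := by
  classical
  obtain ⟨g, rfl⟩ := exists_eq_smul_padicPlace p hA
  obtain ⟨π, hπ⟩ := exists_isPi (p := p)
  obtain ⟨s₁, hs⟩ := exists_isSigma hπ
  have hs1 := rg_sigma_eq_one hr hflat hdet g h10 h11 hπ hs
  set I := (g • padicPlace p).inertiaSubgroupIn ℚ with hI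
  have hmemI : ∀ τ ∈ inertiaLoc p, rg p g τ ∈ I := fun τ hτ => (rg_mem_inertia_iff p g τ).2 hτ
  haveI : NeZero p := ⟨hp.out.ne_zero⟩
  have hp0 : (p : Qb) ≠ 0 := by exact_mod_cast hp.out.ne_zero
  haveI : NeZero (p : Qb) := ⟨hp0⟩
  obtain ⟨ζ₀, hζ₀⟩ := HasEnoughRootsOfUnity.exists_primitiveRoot Qb p
  have hζ00 : ζ₀ ≠ 0 := hζ₀.ne_zero hp.out.ne_zero
  obtain ⟨z, hz0⟩ : ∃ z : Qbˣ, (z : Qb) = ζ₀ := ⟨Units.mk0 ζ₀ hζ00, rfl⟩
  have hz : IsPrimitiveRoot z p := by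
    rw [← IsPrimitiveRoot.coe_units_iff, hz0]
    exact hζ₀
  obtain ⟨e, he0, hadd, hinj, hpow, hmul, he1⟩ := exists_char hz
  -- the determinant
  have hcyc : ∀ σ : Γℚ, ∀ a : ℕ, (∀ μ : Qb, μ ^ p = 1 → σ μ = μ ^ a) →
      (r σ).det = (a : ZMod p) := by
    intro σ a ha
    have h1 := ((realizes_detIsCyclotomic_iff (Realizes.ofResidual hr) p).1 hdet).2 1 σ a
      (fun μ hμ => ha μ (by rwa [pow_one] at hμ))
    rw [pow_one, ZMod.natCast_self, Ideal.mem_span_singleton, zero_dvd_iff, sub_eq_zero] at h1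
    exact h1
  have hact : ∀ σ : Γℚ, ∀ x : ZMod p, uact σ (e x) = e ((r σ).det * x) := by
    intro σ x
    have h1 : σ ζ₀ ^ p = 1 := by rw [← map_pow, hζ₀.pow_eq_one, map_one]
    obtain ⟨a, -, ha⟩ := hζ₀.eq_pow_of_pow_eq_one h1
    have h2 : ∀ μ : Qb, μ ^ p = 1 → σ μ = μ ^ a := by
      intro μ hμ
      obtain ⟨i, -, rfl⟩ := hζ₀.eq_pow_of_pow_eq_one hμ
      rw [map_pow, ← ha, ← pow_mul, ← pow_mul, mul_comm]
    rw [hcyc σ a h2, hmul]
    apply Units.ext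
    rw [coe_uact, Units.val_pow_eq_pow_val]
    refine h2 _ ?_
    rw [← Units.val_pow_eq_pow_val, hpow, Units.val_one]
  have hdet00 : ∀ σ ∈ I, (r σ).det = r σ 0 0 := by
    intro σ hσ
    rw [Matrix.det_fin_two, h10 σ hσ, h11 σ hσ]
    ring
  -- the cocycle
  obtain ⟨c, hc⟩ : ∃ c : Γℚ → Qbˣ, c = fun σ => e (r σ 0 1) := ⟨_, rfl⟩
  have hcoc : ∀ σ ∈ I, ∀ τ ∈ I, c (σ * τ) = c σ * uact σ (c τ) := by
    intro σ hσ τ hτ
    rw [hc]
    change e (r (σ * τ) 0 1) = e (r σ 0 1) * uact σ (e (r τ 0 1))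
    rw [hact, ← hadd, hr.map_mul, Matrix.mul_apply, Fin.sum_univ_two, h11 τ hτ, mul_one,
      hdet00 σ hσ, add_comm]
  have hlev : ∃ U ∈ galLevels ℚ Qb, ∀ σ ∈ I, ∀ u ∈ I, u ∈ U → c (σ * u) = c σ := by
    obtain ⟨L, hLfin, hL⟩ := ρ.factorsThroughFiniteLevel
    haveI := hLfin
    refine ⟨L.fixingSubgroup, fixingSubgroup_mem_galLevels _, ?_⟩
    intro σ _ u _ hu
    have h1 : ρ.ρ u = 1 := hL u fun x hx => (IntermediateField.mem_fixingSubgroup_iff _ _).1 hu x hx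
    have h2 : r u = 1 := by
      obtain ⟨b, hb⟩ := hr
      rw [← hb, h1]
      exact LinearMap.toMatrix_one b
    rw [hc]
    change e (r (σ * u) 0 1) = e (r σ 0 1)
    rw [hr.map_mul, h2, Matrix.mul_one]
  obtain ⟨β, hβ⟩ := hilb90 I c hcoc hlev
  have hβ0 : (β : Qb) ≠ 0 := β.ne_zero
  have hσβ : ∀ σ ∈ I, σ (β : Qb) = (c σ : Qb) * β := fun σ hσ => by
    have := congrArg Units.val (hβ σ hσ)
    exact this
  have hcp : ∀ σ, (c σ : Qb) ^ p = 1 := by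
    intro σ
    rw [hc]
    change ((e (r σ 0 1) : Qbˣ) : Qb) ^ p = 1
    rw [← Units.val_pow_eq_pow_val, hpow, Units.val_one]
  have hc1 : ∀ σ, r σ = 1 → c σ = 1 := by
    intro σ h1
    rw [hc]
    change e (r σ 0 1) = 1
    rw [h1, Matrix.one_apply_ne (by decide), he0]
  have hβp : ∀ σ ∈ I, σ ((β : Qb) ^ p) = (β : Qb) ^ p := by
    intro σ hσ
    rw [map_pow, hσβ σ hσ, mul_pow, hcp, one_mul]
  obtain ⟨n, hn⟩ := exists_norm_jg_of_inertia p g (pow_ne_zero p hβ0) hβp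
  -- divisibility
  have hpn : (p : ℤ) ∣ n := by
    obtain ⟨z₀, hz₀⟩ := IsAlgClosed.exists_pow_nat_eq (p : Qb) hp.out.pos
    have hz₀0 : z₀ ≠ 0 := by
      rintro rfl
      rw [zero_pow hp.out.ne_zero] at hz₀
      exact hp0 hz₀.symm
    set y : Qb := β / z₀ ^ n with hy
    have hyp : y ^ p = (β : Qb) ^ p / (p : Qb) ^ n := by
      rw [hy, div_pow, ← hz₀, ← zpow_natCast, ← zpow_natCast, ← zpow_mul, ← zpow_natCast,
        ← zpow_mul, mul_comm]
    have hyn : ‖jg p g y‖ = 1 := by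
      have h1 : ‖jg p g y‖ ^ p = 1 := by
        rw [← norm_pow, ← map_pow, hyp, map_div₀, norm_div, hn, map_zpow₀, map_natCast,
          norm_zpow, div_self]
        refine zpow_ne_zero _ (norm_ne_zero_iff.2 ?_)
        exact_mod_cast hp.out.ne_zero
      exact (pow_eq_one_iff_of_nonneg (norm_nonneg _) hp.out.ne_zero).1 h1
    have hyL : InL π ((jg p g y) ^ p) := by
      intro τ hτ
      rw [← map_pow, ← jg_rg, hyp, map_div₀, hβp _ (hmemI τ hτ.1), map_zpow₀, map_natCast]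
    have h2 := hs.fix _ hyn hyL
    have hs₁I : s₁ ∈ inertiaLoc p := hs.mem.1
    rw [← jg_rg] at h2
    have h3 : rg p g s₁ y = y := jg_injective p g h2
    rw [hy, map_div₀, hσβ _ (hmemI _ hs₁I), hc1 _ hs1, Units.val_one, one_mul, map_zpow₀] at h3
    have h4 : (rg p g s₁ z₀) ^ n = z₀ ^ n := by
      have h5 : (z₀ : Qb) ^ n ≠ 0 := zpow_ne_zero _ hz₀0
      have h6 : (rg p g s₁ z₀) ^ n ≠ 0 := zpow_ne_zero _ (by simpa using hz₀0)
      rw [div_eq_div_iff h6 h5] at h3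
      exact (mul_left_cancel₀ hβ0 h3).symm
    have h5 : rg p g s₁ z₀ ≠ z₀ := by
      intro h6
      refine hs.move (jg p g z₀) ?_ ?_
      · rw [← map_pow, hz₀, map_natCast]
      · rw [← jg_rg, h6]
    obtain ⟨ω, hω⟩ : ∃ ω, ω = rg p g s₁ z₀ / z₀ := ⟨_, rfl⟩
    have hωp : ω ^ p = 1 := by
      rw [hω, div_pow, ← map_pow, hz₀, map_natCast, div_self hp0]
    have hω1 : ω ≠ 1 := by
      rw [hω]
      intro h6
      exact h5 ((div_eq_one_iff_eq hz₀0).1 h6)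
    have hωprim : IsPrimitiveRoot ω p := by
      rw [IsPrimitiveRoot.iff_orderOf]
      exact orderOf_eq_prime hωp hω1
    have hωn : ω ^ n = 1 := by
      rw [hω, div_zpow, h4, div_self (zpow_ne_zero _ hz₀0)]
    exact (hωprim.zpow_eq_one_iff_dvd n).1 hωn
  obtain ⟨m, hm⟩ := hpn
  obtain ⟨w, hw⟩ : ∃ w : Qb, w = β / (p : Qb) ^ m := ⟨_, rfl⟩
  have hw0 : w ≠ 0 := by
    rw [hw]
    exact div_ne_zero hβ0 (zpow_ne_zero _ hp0)
  have hσw : ∀ σ ∈ I, σ w = (c σ : Qb) * w := by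
    intro σ hσ
    rw [hw, map_div₀, hσβ σ hσ, map_zpow₀, map_natCast, mul_div_assoc]
  have hnw : ‖jg p g w‖ = 1 := by
    have h1 : ‖jg p g w‖ ^ p = 1 := by
      have h2 : w ^ p = (β : Qb) ^ p / (p : Qb) ^ n := by
        rw [hw, div_pow, hm, ← zpow_natCast, ← zpow_natCast, ← zpow_mul, mul_comm m]
      rw [← norm_pow, ← map_pow, h2, map_div₀, norm_div, hn, map_zpow₀, map_natCast,
        norm_zpow, div_self]
      refine zpow_ne_zero _ (norm_ne_zero_iff.2 ?_)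
      exact_mod_cast hp.out.ne_zero
    exact (pow_eq_one_iff_of_nonneg (norm_nonneg _) hp.out.ne_zero).1 h1
  refine ⟨w, MazurS.v_of_AU hw0 ((isUnit_iff_norm p g w).2 (Or.inr hnw)), ?_, ?_, ?_⟩
  · intro σ hσ
    rw [map_pow, hσw σ hσ, mul_pow, hcp, one_mul]
  · intro σ hσ h1
    rw [hσw σ hσ, hc1 σ h1, Units.val_one, one_mul]
  · intro σ hσ hμ hfix
    have h1 : c σ = 1 := by
      have h2 := hσw σ hσ
      rw [hfix] at h2
      apply Units.ext
      rw [Units.val_one]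
      have h3 : (c σ : Qb) * w = 1 * w := by rw [one_mul]; exact h2.symm
      exact mul_right_cancel₀ hw0 h3
    have h01 : r σ 0 1 = 0 := by
      rw [hc] at h1
      exact hinj _ h1
    have h00 : r σ 0 0 = 1 := by
      rw [← hdet00 σ hσ, hcyc σ 1 (fun μ h => by rw [pow_one]; exact hμ μ h)]
      simp
    ext i j
    fin_cases i <;> fin_cases j
    · exact h00
    · exact h01
    · exact h10 σ hσ
    · exact h11 σ hσ

end Fermat.Agent.MazG
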