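import Fermat.Agent.Full.S38Lib
import Fermat.Agent.Full.LiftDef
import Fermat.Agent.LL.S59SetupProof
import Fermat.Agent.S33Lib.Fin

set_option autoImplicit false

/-!
# `W[p]` is ordinary at `p` if it occurs at a newform of level exactly divisible by `p`
-/

open CongruenceSubgroup IsLocalRing Polynomial ModularFormClass WeierstrassCurve

namespace Fermat.Agent.MazG

open Fermat.Agent.LL Fermat.Agent.DefRing Fermat.Agent.Wire Fermat.Agent.TwoAdic
  Fermat.Agent.TW Fermat.Agent.ECRep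

local notation "Γℚ" => (AlgebraicClosure ℚ ≃ₐ[ℚ] AlgebraicClosure ℚ)
local notation "Qb" => AlgebraicClosure ℚ
local notation "M₂" => Matrix (Fin 2) (Fin 2)

theorem map_unr {R S : Type*} [CommRing R] [CommRing S] (φ : R →+* S) (v : ℕ) (u : R) (g : Γℚ) :
    φ (unr v u g) = unr v (φ u) g := by
  unfold unr
  split_ifs
  · exact map_one φ
  · rfl

/-- the relation in a representation realised by matrices -/
theorem star_mat {R : Type} [CommRing R] [IsLocalRing R] {ρ : GaloisRepAdic R}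
    {r : Γℚ → M₂ R} (hr : Realizes ρ r) {v : ℕ} {u : R} (h : StarAtRep ρ v u)
    {P : ValuationSubring Qb} (hP : P.LiesOverPrime v) {g g' : Γℚ}
    (hg : g ∈ P.decompositionSubgroup ℚ) (hg' : g' ∈ P.decompositionSubgroup ℚ) :
    (r g - Matrix.scalar (Fin 2) ((r g).det * unr v u g)) *
      (r g' - Matrix.scalar (Fin 2) (unr v u g')) = 0 := by
  obtain ⟨b, hb⟩ := hr
  have h1 := congrArg (LinearMap.toMatrix b b) (h P hP g hg g' hg')
  rw [LinearMap.toMatrix_mul, map_sub, map_sub, hb, hb, map_zero] at h1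
  have e : ∀ c : R, LinearMap.toMatrix b b (algebraMap R (Module.End R ρ.V) c) =
      Matrix.scalar (Fin 2) c := by
    intro c
    have h2 : algebraMap R (Module.End R ρ.V) c = c • (1 : Module.End R ρ.V) :=
      Algebra.algebraMap_eq_smul_one c
    have h3 : Matrix.scalar (Fin 2) c = c • (1 : Matrix (Fin 2) (Fin 2) R) := by
      rw [Matrix.smul_one_eq_diagonal]; rfl
    rw [h2, h3, map_smul]
    congr 1
    exact LinearMap.toMatrix_one b
  rw [e, e, ← LinearMap.det_toMatrix b, hb] at h1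
  exact h1

/-- conversely -/
theorem starAtRep_of_mat {R : Type} [CommRing R] [IsLocalRing R] {ρ : GaloisRepAdic R}
    {r : Γℚ → M₂ R} (hr : Realizes ρ r) {v : ℕ} {u : R}
    (h : ∀ P : ValuationSubring Qb, P.LiesOverPrime v → ∀ g ∈ P.decompositionSubgroup ℚ,
      ∀ g' ∈ P.decompositionSubgroup ℚ,
      (r g - Matrix.scalar (Fin 2) ((r g).det * unr v u g)) *
        (r g' - Matrix.scalar (Fin 2) (unr v u g')) = 0) : StarAtRep ρ v u := by
  obtain ⟨b, hb⟩ := hr
  intro P hP g hg g' hg'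
  apply (LinearMap.toMatrix b b).injective
  have e : ∀ c : R, LinearMap.toMatrix b b (algebraMap R (Module.End R ρ.V) c) =
      Matrix.scalar (Fin 2) c := by
    intro c
    have h2 : algebraMap R (Module.End R ρ.V) c = c • (1 : Module.End R ρ.V) :=
      Algebra.algebraMap_eq_smul_one c
    have h3 : Matrix.scalar (Fin 2) c = c • (1 : Matrix (Fin 2) (Fin 2) R) := by
      rw [Matrix.smul_one_eq_diagonal]; rfl
    rw [h2, h3, map_smul]
    congr 1
    exact LinearMap.toMatrix_one b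
  rw [LinearMap.toMatrix_mul, map_sub, map_sub, hb, hb, map_zero, e, e,
    ← LinearMap.det_toMatrix b, hb]
  exact h P hP g hg g' hg'

/-- the relation descends -/
theorem star_descend {k K : Type} [Field k] [Field K] (φ : k →+* K) {r0 : Γℚ → M₂ k}
    {r1 : Γℚ → M₂ K} {P : M₂ K} (hP : IsUnit P.det) (hc : ∀ σ, P * r1 σ = (r0 σ).map φ * P)
    {g g' : Γℚ} {a c : k}
    (h : (r1 g - Matrix.scalar (Fin 2) ((r1 g).det * φ a)) *
      (r1 g' - Matrix.scalar (Fin 2) (φ c)) = 0) :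
    (r0 g - Matrix.scalar (Fin 2) ((r0 g).det * a)) * (r0 g' - Matrix.scalar (Fin 2) c) = 0 := by
  have hPu : IsUnit P := (Matrix.isUnit_iff_isUnit_det P).2 hP
  have hs : ∀ x : K, P * Matrix.scalar (Fin 2) x = Matrix.scalar (Fin 2) x * P := fun x =>
    (Matrix.scalar_commute x (fun y => Commute.all _ _) P).symm
  have hdet : (r1 g).det = φ (r0 g).det := by
    have h1 := congrArg Matrix.det (hc g)
    rw [Matrix.det_mul, Matrix.det_mul, mul_comm] at h1
    have h2 := hP.mul_right_cancel h1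
    rw [h2, RingHom.map_det]
    rfl
  have e : ∀ (σ : Γℚ) (x : k), P * (r1 σ - Matrix.scalar (Fin 2) (φ x)) =
      (r0 σ - Matrix.scalar (Fin 2) x).map φ * P := by
    intro σ x
    rw [mul_sub, hc, hs, ← sub_mul]
    congr 1
    ext i j
    simp [Matrix.scalar_apply, Matrix.diagonal_apply, apply_ite φ]
  have h3 : ((r0 g - Matrix.scalar (Fin 2) ((r0 g).det * a)) *
      (r0 g' - Matrix.scalar (Fin 2) c)).map φ * P = 0 := by
    have h4 := congrArg (fun M => P * M) h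
    simp only [mul_zero] at h4
    rw [hdet, ← map_mul, ← mul_assoc, e, mul_assoc, e, ← mul_assoc] at h4
    rw [← h4]
    congr 1
    exact Matrix.map_mul
  have h5 := (hPu.mul_left_eq_zero).1 h3
  apply Matrix.map_injective φ.injective
  refine h5.trans ?_
  ext i j
  simp

/-- **`W[p]` satisfies the Steinberg condition at `p`** if it occurs at a newform of level exactly
divisible by `p`. -/
theorem star_of_occZ {p : ℕ} [hpp : Fact p.Prime] (hp2 : p ≠ 2) {W : WeierstrassCurve ℤ}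
    (hΔ : W.Δ ≠ 0) (hirr : W.ModRepIsIrreducible p) {N : ℕ} (hocc : OccZ p (cW W) N)
    (hpN : p ∣ N) (hp2N : ¬ p ^ 2 ∣ N) :
    ∃ u : ZMod p, u ^ 2 = 1 ∧
      StarAtRep (GaloisRepAdic.ofResidualGaloisRep (curveRho p W hΔ)) p u := by
  classical
  have hp : p.Prime := hpp.out
  obtain ⟨hN0, 𝔪, h𝔪, hpm, f, S1, hf, hcong⟩ := id hocc
  have hfe : f.IsNormalizedEigenform := hf.isNormalizedEigenform
  obtain ⟨𝒪, i1, i2, i3, i4, i5, i6, hp𝒪, j, ι, b, hj, -, hι, hb, hsplit⟩ :=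
    exists_dvr59 hp 𝔪 h𝔪 hpm hfe ∅
  have hchar : CharP (ResidueField 𝒪) p := charP_residueField hp hp𝒪
  let ialg : Algebra (ZMod p) (ResidueField 𝒪) := ZMod.algebra _ p
  obtain ⟨S, hS⟩ : ∃ S, S = insert p ((N.primeFactors ∪ W.Δ.natAbs.primeFactors) ∪ S1) :=
    ⟨_, rfl⟩
  have hSp : p ∈ S := hS ▸ Finset.mem_insert_self _ _
  have hSN : ∀ q : ℕ, q.Prime → q ∣ N → q ∈ S := by
    intro q hq hqN
    rw [hS]
    exact Finset.mem_insert_of_mem (Finset.mem_union_left _ (Finset.mem_union_left _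
      (Nat.mem_primeFactors.2 ⟨hq, hqN, hN0.ne⟩)))
  have hSW : ∀ q : ℕ, q.Prime → (q : ℤ) ∣ W.Δ → q ∈ S := by
    intro q hq hqW
    rw [hS]
    exact Finset.mem_insert_of_mem (Finset.mem_union_left _ (Finset.mem_union_right _
      (Nat.mem_primeFactors.2 ⟨hq, Int.natCast_dvd.1 hqW, Int.natAbs_ne_zero.2 hΔ⟩)))
  have hS1 : S1 ⊆ S := by
    rw [hS]
    exact (Finset.subset_union_right).trans (Finset.subset_insert _ _)
  have hCtx : Ctx p j (rhoBar59 p W hΔ 𝒪) S (fun ℓ ↦ ((W.apOfModel ℓ : ℤ) : 𝒪)) := by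
    refine { prime := hp, ne2 := hp2, mem := hp𝒪, inj := hj,
             abs := curve_absIrr W hp2 hΔ hirr (ResidueField 𝒪),
             odd := curve_isOdd W (ResidueField 𝒪) hΔ,
             frob := ?_, pS := hSp, noneis := ?_ }
    · intro ℓ hℓ hℓS P hP σ hσ
      beta_reduce
      rw [map_intCast]
      exact curve_charpoly_frob W (ResidueField 𝒪) hΔ hℓ (fun h ↦ hℓS (h ▸ hSp))
        (fun h ↦ hℓS (hSW ℓ hℓ h)) hP hσ
    · intro S m hm
      obtain ⟨ℓ, h1, h2, h3, -, h4⟩ := Wire.noneis_W (k := ResidueField 𝒪) W hp2 hΔ hirr S hm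
      refine ⟨ℓ, h1, h2, h3, ?_⟩
      rw [map_intCast]
      exact h4
  obtain ⟨hbc, hcongTo⟩ := congTo_of_occ (c := cW W) h𝔪 hι hfe hb hcong
  have hcongTo0 : CongTo j (fun ℓ ↦ ((W.apOfModel ℓ : ℤ) : 𝒪)) S (fun ℓ ↦ qCoeff f ℓ) := by
    obtain ⟨A, i1, i2, i3, i4, i5, φ, t', h1, h2⟩ := hcongTo
    exact ⟨A, i1, i2, i3, i4, i5, φ, t', h1, fun ℓ hℓ hℓS ↦ h2 ℓ hℓ fun h ↦ hℓS (hS1 h)⟩
  obtain ⟨P, hP⟩ := exists_pt_of_congTo hCtx LL.inputs (Finset.Subset.refl S) hcongTo0 hf hSN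
    (fun ℓ _ _ ↦ rfl)
  -- the newform
  let e : P.R ≃+* P.ι.range := RingEquiv.ofBijective P.ι.rangeRestrict
    ⟨fun x y hxy => P.ι_inj (congrArg Subtype.val hxy), P.ι.rangeRestrict_surjective⟩
  have hD : ∀ ℓ : ℕ, ℓ.Prime → ℓ ∉ S → qCoeff f ℓ ∈ P.ι.range :=
    fun ℓ hℓ hS => ⟨P.tr ℓ, P.ι_tr ℓ hℓ hS⟩
  have htr : ∀ (ℓ : ℕ) (hℓ : ℓ.Prime) (hS : ℓ ∉ S),
      (e.symm : P.ι.range →+* P.R) ⟨_, hD ℓ hℓ hS⟩ = P.tr ℓ := by
    intro ℓ hℓ hS
    change e.symm _ = _
    rw [RingEquiv.symm_apply_eq]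
    apply Subtype.ext
    exact (P.ι_tr ℓ hℓ hS).symm
  have hpR : (p : P.R) ∈ maximalIdeal P.R := by
    have h1 := map_nonunit (algebraMap 𝒪 P.R) _ hp𝒪
    rwa [map_natCast] at h1
  have hap := Newform.newform_exact hp hpN hp2N hf
  have hv : qCoeff f p ∈ P.ι.range := by
    rcases S33Lib.eq_one_or_neg_one hap with h | h
    · rw [h]; exact P.ι.range.one_mem
    · rw [h]; exact P.ι.range.neg_mem P.ι.range.one_mem
  have hstar := S33Lib.newformStarP p hf hp hpN hp2N S hSp hSN P.R hpR P.ι.range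
    (e.symm : P.ι.range →+* P.R) hD hv P.ρ (fun ℓ hℓ hS A hA σ hσ => by
      rw [htr ℓ hℓ hS]
      exact P.frob ℓ hℓ hS A hA σ hσ) (absIrr_of_isEquiv _ hCtx.abs P.residual)
  set u : P.R := (e.symm : P.ι.range →+* P.R) ⟨_, hv⟩ with hu
  have hu1 : ∃ u0 : ZMod p, u0 ^ 2 = 1 ∧ residue P.R u =
      ResidueField.map (algebraMap 𝒪 P.R) (algebraMap (ZMod p) (ResidueField 𝒪) u0) := by
    rcases S33Lib.eq_one_or_neg_one hap with h | h
    · refine ⟨1, one_pow 2, ?_⟩
      have h1 : u = 1 := by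
        rw [hu, ← map_one (e.symm : P.ι.range →+* P.R)]
        congr 1
        exact Subtype.ext h
      rw [h1, map_one, map_one, map_one]
    · refine ⟨-1, by ring, ?_⟩
      have h1 : u = -1 := by
        rw [hu, ← map_one (e.symm : P.ι.range →+* P.R), ← map_neg]
        congr 1
        exact Subtype.ext h
      rw [h1, map_neg, map_one, map_neg, map_one, map_neg, map_one]
  obtain ⟨u0, hu0, hu0'⟩ := hu1
  refine ⟨u0, hu0, ?_⟩
  -- matrices
  obtain ⟨r', hr'⟩ := exists_realizes P.ρ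
  obtain ⟨r0, hr0⟩ := exists_realizesRes (curveRho p W hΔ)
  have h1 := hr'.residual.of_isEquiv P.residual
  have h2 := (hr0.baseChange (ResidueField 𝒪)).baseChangeAlong
    (ResidueField.map (algebraMap 𝒪 P.R))
  obtain ⟨Q, hQ, hQc⟩ := h2.exists_conj h1
  refine starAtRep_of_mat (Realizes.ofResidual hr0) fun A hA g hg g' hg' => ?_
  refine star_descend ((ResidueField.map (algebraMap 𝒪 P.R)).comp
    (algebraMap (ZMod p) (ResidueField 𝒪))) (r1 := fun σ => (r' σ).map (residue P.R)) hQ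
    (fun σ => ?_) ?_
  · rw [hQc]
    congr 1
  · have h3 : ((r' g - Matrix.scalar (Fin 2) ((r' g).det * unr p u g)) *
        (r' g' - Matrix.scalar (Fin 2) (unr p u g'))).map (residue P.R) =
        (0 : M₂ P.R).map (residue P.R) :=
      congrArg (fun M : M₂ P.R => M.map (residue P.R)) (star_mat hr' hstar hA hg hg')
    have e2 : ∀ g : Γℚ, ((ResidueField.map (algebraMap 𝒪 P.R)).comp
        (algebraMap (ZMod p) (ResidueField 𝒪))) (unr p u0 g) = residue P.R (unr p u g) := by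
      intro g
      rw [map_unr, RingHom.comp_apply, ← hu0', map_unr]
    rw [e2, e2]
    have e1 : ∀ (σ : Γℚ) (x : P.R), (r' σ - Matrix.scalar (Fin 2) x).map (residue P.R) =
        (r' σ).map (residue P.R) - Matrix.scalar (Fin 2) (residue P.R x) := by
      intro σ x
      ext i j
      simp [Matrix.scalar_apply, Matrix.diagonal_apply, apply_ite (residue P.R)]
    rw [Matrix.map_mul, e1, e1, map_mul, RingHom.map_det] at h3
    refine h3.trans ?_
    ext i j
    simp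

/-- **`W[p]` is strictly ordinary at `p`** if it occurs at a newform of level exactly divisible
by `p`. -/
theorem strictOrd_of_occZ {p : ℕ} [hpp : Fact p.Prime] (hp2 : p ≠ 2) {W : WeierstrassCurve ℤ}
    (hΔ : W.Δ ≠ 0) (hirr : W.ModRepIsIrreducible p) {N : ℕ} (hocc : OccZ p (cW W) N)
    (hpN : p ∣ N) (hp2N : ¬ p ^ 2 ∣ N) :
    (GaloisRepAdic.ofResidualGaloisRep (curveRho p W hΔ)).IsStrictOrdinaryAt p := by
  obtain ⟨u, hu, hstar⟩ := star_of_occZ hp2 hΔ hirr hocc hpN hp2N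
  exact S33Lib.isStrictOrdinaryAt_of_star hpp.out hp2 (detIsCyclotomic_resRep W p hΔ) hu hstar

/-- matrix form of `strictOrd_of_occZ` -/
theorem exists_ordMat_of_occZ {p : ℕ} [hpp : Fact p.Prime] (hp2 : p ≠ 2) {W : WeierstrassCurve ℤ}
    (hΔ : W.Δ ≠ 0) (hirr : W.ModRepIsIrreducible p) {N : ℕ} (hocc : OccZ p (cW W) N)
    (hpN : p ∣ N) (hp2N : ¬ p ^ 2 ∣ N) {A : ValuationSubring Qb} (hA : A.LiesOverPrime p) :
    ∃ r, RealizesRes (curveRho p W hΔ) r ∧ OrdMat p A r :=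
  ((isStrictOrdinaryAt_iff _ p).1 (strictOrd_of_occZ hp2 hΔ hirr hocc hpN hp2N)).2 A hA

/-- **Level lowering at `p`, dichotomy**: if `W[p]` is modular of level `M` with `p ∥ M`, then it
is modular of level `M / p` or it occurs at a newform of level `N ∣ M` with `p ∥ N`, and then it is
strictly ordinary at `p`. No condition on the reduction of `W`. -/
theorem level_or_ord {p : ℕ} [hpp : Fact p.Prime] (hp2 : p ≠ 2) {W : WeierstrassCurve ℤ}
    (hΔ : W.Δ ≠ 0) (hirr : W.ModRepIsIrreducible p) {M : ℕ} (hM : M ≠ 0) (hpM : p ∣ M)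
    (hp2M : ¬ p ^ 2 ∣ M) (hres : W.IsResiduallyModularOfLevel p M) :
    W.IsResiduallyModularOfLevel p (M / p) ∨ ∃ N, N ∣ M ∧ p ∣ N ∧ OccZ p (cW W) N ∧
      (GaloisRepAdic.ofResidualGaloisRep (curveRho p W hΔ)).IsStrictOrdinaryAt p ∧
      ∀ A : ValuationSubring Qb, A.LiesOverPrime p →
        ∃ r, RealizesRes (curveRho p W hΔ) r ∧ OrdMat p A r := by
  obtain ⟨N, hNM, hocc⟩ := Full.occZ_of_residually hΔ hM hres
  by_cases hpN : p ∣ N
  · have hp2N : ¬ p ^ 2 ∣ N := fun h => hp2M (h.trans hNM)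
    exact Or.inr ⟨N, hNM, hpN, hocc, strictOrd_of_occZ hp2 hΔ hirr hocc hpN hp2N,
      fun A hA => exists_ordMat_of_occZ hp2 hΔ hirr hocc hpN hp2N hA⟩
  · left
    obtain ⟨M', rfl⟩ := hpM
    rw [Nat.mul_div_cancel_left _ hpp.out.pos]
    exact Full.residually_of_occZ hΔ hocc (right_ne_zero_of_mul hM)
      (((Nat.Prime.coprime_iff_not_dvd hpp.out).mpr hpN).symm.dvd_of_dvd_mul_left hNM)

end Fermat.Agent.MazG
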