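import Fermat.Agent.MazG.CoreG
import Fermat.Agent.MazG.Bridge
import Fermat.Agent.MazG.OrdNew
import Fermat.Prelude.Def_WeierstrassCurve_PeuRamifiee

set_option autoImplicit false

/-!
# Removing `p` from the level when the inertia group at `p` has an adapted basis
-/

open WeierstrassCurve ModularFormClass CongruenceSubgroup ModularCurve

namespace Fermat.Agent.MazG

open Fermat.Agent.ECRep Fermat.Agent.MazurS

local notation "Γℚ" => (AlgebraicClosure ℚ ≃ₐ[ℚ] AlgebraicClosure ℚ)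
local notation "Qb" => AlgebraicClosure ℚ

/-- Mazur's principle at `p`, for a curve with an adapted basis at `p`. -/
theorem level_of_ordBasis {W : WeierstrassCurve ℤ} (hΔ : W.Δ ≠ 0) {p : ℕ} [hp : Fact p.Prime]
    (hp2 : p ≠ 2) (hirr : W.ModRepIsIrreducible p) {A : ValuationSubring Qb}
    (hA : A.LiesOverPrime p)
    (hord : OrdBasis W p hΔ A)
    (hpeu : ∀ t : A, t ≠ 0 → MazurP.AU A ((t : Qb) ^ (p - 1) / p) →
      MazurP.PEU A p (inertiaU W p A) t)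
    {M : ℕ} (hM : 0 < M) (hpM : p ∣ M) (hp2M : ¬ p ^ 2 ∣ M)
    (hmod : W.IsResiduallyModularOfLevel p M) :
    W.IsResiduallyModularOfLevel p (M / p) := by
  have hpp := hp.out
  obtain ⟨M', rfl⟩ := hpM
  rw [mul_comm] at hM hp2M hmod ⊢
  rw [Nat.mul_div_cancel _ hpp.pos]
  have hM'0 : M' ≠ 0 := fun h => by rw [h, zero_mul] at hM; exact lt_irrefl _ hM
  have hpM' : ¬ p ∣ M' := fun hd => hp2M (by rw [pow_two]; exact mul_dvd_mul_right hd p)
  have i1 : NeZero M' := ⟨hM'0⟩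
  have i2 : NeZero (M' * p) := ⟨hM.ne'⟩
  obtain ⟨S, hSfin, hpS, hS, x, hx0, hpx, hx⟩ := exists_point_of_modular hΔ hmod
  obtain ⟨f, 𝔪, hf, h𝔪, hp𝔪, S', hS'⟩ := coreG hp2 hpM' hΔ hirr hA hord hpeu S hSfin hpS hS hx0
    hpx hx
  exact isResiduallyModularOfLevel_of_ae hΔ hpp hM'0 hf h𝔪 hp𝔪 S' hS'

/-- **S39 for `p ∣ Δ`** -/
theorem level_of_mult {W : WeierstrassCurve ℤ} (hΔ : W.Δ ≠ 0) {p : ℕ} (hp : p.Prime)
    (hp2 : p ≠ 2) (hirr : W.ModRepIsIrreducible p) (hpΔ : (p : ℤ) ∣ W.Δ)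
    (hc : ¬ (p : ℤ) ∣ W.c₄) (hv : p ∣ padicValInt p W.Δ)
    {M : ℕ} (hM : 0 < M) (hpM : p ∣ M) (hp2M : ¬ p ^ 2 ∣ M)
    (hmod : W.IsResiduallyModularOfLevel p M) :
    W.IsResiduallyModularOfLevel p (M / p) := by
  have : Fact p.Prime := ⟨hp⟩
  have hp3 : 3 ≤ p := lt_of_le_of_ne hp.two_le (Ne.symm hp2)
  obtain ⟨A, hA⟩ := Frob.exists_liesOverPrime Qb hp
  exact level_of_ordBasis hΔ hp2 hirr hA (ordBasis_of_mult hΔ hpΔ hc hA)
    (fun t ht htp => peu_inertiaU hp3 hΔ hpΔ hc hv hA ht htp) hM hpM hp2M hmod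

/-- **S40** -/
theorem level_of_good {W : WeierstrassCurve ℤ} (hΔ : W.Δ ≠ 0) {p : ℕ} (hp : p.Prime)
    (hp2 : p ≠ 2) (hirr : W.ModRepIsIrreducible p) (hpΔ : ¬ (p : ℤ) ∣ W.Δ)
    {M : ℕ} (hM : 0 < M) (hpM : p ∣ M) (hp2M : ¬ p ^ 2 ∣ M)
    (hmod : W.IsResiduallyModularOfLevel p M) :
    W.IsResiduallyModularOfLevel p (M / p) := by
  have : Fact p.Prime := ⟨hp⟩
  rcases level_or_ord hp2 hΔ hirr hM.ne' hpM hp2M hmod with h | ⟨N, -, -, -, -, h⟩
  · exact h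
  · obtain ⟨A, hA⟩ := Frob.exists_liesOverPrime Qb hp
    obtain ⟨r, hr, hr'⟩ := h A hA
    have hord := ordBasis_of_ordMat hΔ hr hr'
    exact level_of_ordBasis hΔ hp2 hirr hA hord (peu_of_ordBasis hp2 hΔ hpΔ hA hord) hM hpM hp2M
      hmod

/-- the hypothesis of `S39` in terms of the integral model -/
theorem dvd_padicValInt_of_peu {W : WeierstrassCurve ℤ} {p : ℕ} [Fact p.Prime]
    (h : (W.map (Int.castRingHom ℚ)).IsPeuRamifieeAt p p) : p ∣ padicValInt p W.Δ := by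
  unfold WeierstrassCurve.IsPeuRamifieeAt at h
  rw [WeierstrassCurve.map_Δ, eq_intCast, padicValRat.of_int] at h
  exact_mod_cast h

end Fermat.Agent.MazG

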