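import Fermat.Agent.TwoAdic.MazPull
import Fermat.Agent.MazurS.Slope0

set_option autoImplicit false
set_option linter.unusedSectionVars false
set_option linter.style.haveILetI false
set_option linter.unusedVariables false

/-!
# Slopes at the rigid level, every residue characteristic
-/

noncomputable section

open AlgebraicCurve IntermediateField Module ModularCurve

namespace Fermat.Agent.MazG

open Fermat.Agent.FF Fermat.Agent.Red Fermat.Agent.QVal Fermat.Agent.QComp Fermat.Agent.JZ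
  Fermat.Agent.MazurP Fermat.Agent.MazurQ Fermat.Agent.Node Fermat.Agent.ESh Fermat.Agent.MazurS

local notation "Qb" => AlgebraicClosure ℚ
local notation "Γℚ" => (AlgebraicClosure ℚ ≃ₐ[ℚ] AlgebraicClosure ℚ)

section Hecke

/-- the Hecke operator is `φ + ℓ φ⁻¹` on `p`-torsion -/
theorem hecke_eq_frob {L p : ℕ} [NeZero L] {l : Nat.Primes} (hl : ¬ (l : ℕ) ∣ L * p)
    {A : ValuationSubring Qb} (hA : A.LiesOverPrime l) {φ : Γℚ} (hφ : A.IsFrobeniusAt φ l)
    {x : JZero L} (hx : p • x = 0) :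
    heckeOperatorBar L l x = φ • x + (l : ℕ) • φ⁻¹ • x := by
  have h1 := (TwoAdic.MazH.jzeroES L p).frob l l.2 hl A hA φ hφ (φ⁻¹ • x)
    ⟨1, by rw [pow_one]; exact TwoAdic.MazH.gsmul_nsmul_zero _ hx⟩
  rw [smul_inv_smul] at h1
  rw [← sub_eq_zero, ← neg_eq_zero]
  rw [← h1]
  have e : (⟨(l : ℕ), l.2⟩ : Nat.Primes) = l := rfl
  rw [e]
  abel

/-- a Galois equivariant map commutes with the Hecke operators on `p`-torsion -/
theorem hecke_map {L L' p : ℕ} [NeZero L] [NeZero L'] (f : JZero L →+ JZero L')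
    (hf : ∀ (σ : Γℚ) x, f (σ • x) = σ • f x) {l : Nat.Primes} (hl : ¬ (l : ℕ) ∣ L * p)
    (hl' : ¬ (l : ℕ) ∣ L' * p) {x : JZero L} (hx : p • x = 0) :
    heckeOperatorBar L' l (f x) = f (heckeOperatorBar L l x) := by
  have := Fact.mk l.2
  obtain ⟨A, hA⟩ := Frob.exists_liesOverPrime Qb l.2
  obtain ⟨φ, hφ⟩ := Frob.exists_isFrobeniusAt A l.2 hA
  have hfx : p • f x = 0 := by rw [← map_nsmul, hx, map_zero]
  rw [hecke_eq_frob hl' hA hφ hfx, hecke_eq_frob hl hA hφ hx, map_add, map_nsmul, hf, hf]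

end Hecke

section Pull

variable {M₀ M : ℕ} [NeZero M₀] [NeZero M] (q : ℕ) [NeZero q] (h : M₀ ∣ M)

theorem intertwines_inclq (σ : Γℚ) :
    SemilinearAut.IntertwinesAlong (inclq q h : FB (M₀ * q) →+* FB (M * q))
      (arithmeticGalois (modularFunctionFieldFull (M₀ * q)) σ)
      (arithmeticGalois (modularFunctionFieldFull (M * q)) σ) := by
  intro x
  apply Subtype.ext
  exact congrArg Subtype.val (incl_gal (mul_dvd_mul_right h q) σ x).symm

/-- pull back `J₀(M₀ q) → J₀(M q)` -/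
def pullJ : JZero (M₀ * q) →+ JZero (M * q) :=
  haveI := isFnField_bar (M₀ * q)
  haveI := isFnField_bar (M * q)
  TwoAdic.MazH.pullPic0 (inclq q h) (isIntegralAlong _) (fundamentalIdentityAlong_fn _ _)

theorem pullJ_smul (σ : Γℚ) (x : JZero (M₀ * q)) : pullJ q h (σ • x) = σ • pullJ q h x := by
  haveI := isFnField_bar (M₀ * q)
  haveI := isFnField_bar (M * q)
  exact TwoAdic.MazH.pullPic0_smul _ _ _ (intertwines_inclq q h σ) x

end Pull

section Level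

variable {k : Type*} [Field k] {A : ValuationSubring Qb} {π : A →+* k} {M₀ M q : ℕ} [NeZero M₀]
  [NeZero M] [NeZero q] [hqf : Fact q.Prime] {hA : A.LiesOverPrime q}
  {hπ : ∀ a : A, π a = 0 ↔ ¬ IsUnit a}
  {hs : Function.Surjective π} {hM₀ : ¬ q ∣ M₀} {hM : ¬ q ∣ M}

/-- the pair of reductions of the pull back -/
theorem hasRed_pullJ (h : M₀ ∣ M) {n : ℕ} {x : JZero (M₀ * q)}
    {b₁ b₂ : modularFunctionFieldFullC k M₀} (hred : HasRed hA hπ hs hM₀ n x b₁ b₂) :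
    HasRed hA hπ hs hM n (pullJ q h x) (inclK k h b₁) (inclK k h b₂) := by
  haveI := isFnField_bar (M₀ * q)
  haveI := isFnField_bar (M * q)
  obtain ⟨D, y, γ₁, γ₂, rfl, hy, hdiv, hγ₁, hγ₂, hb₁, hb₂, h1, h2⟩ := hred
  refine ⟨TwoAdic.MazH.degZeroPull (inclq q h) (isIntegralAlong _)
    (fundamentalIdentityAlong_fn _ _) D, inclq q h y, γ₁, γ₂, rfl, (map_ne_zero _).2 hy,
    fun P => ?_, hγ₁, hγ₂, (map_ne_zero _).2 hb₁, (map_ne_zero _).2 hb₂, ?_, ?_⟩
  · have h3 : (TwoAdic.MazH.degZeroPull (inclq q h) (isIntegralAlong _)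
      (fundamentalIdentityAlong_fn _ _) D : Divisor Qb (FB (M * q))) =
      Divisor.pullbackAlong (inclq q h) (isIntegralAlong _) (D : Divisor Qb (FB (M₀ * q))) := rfl
    rw [h3, Divisor.pullbackAlong_apply, Place.ord_restrictAlong (inclq q h) (isIntegralAlong _) P y,
      ← hdiv]
    ring
  · have h3 := isRed_inf_incl (hM := hM) h h1
    rwa [map_mul, AlgHom.commutes] at h3
  · have h3 := isRed_zero_incl (hM := hM) h h2
    rwa [map_mul, AlgHom.commutes] at h3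

/-- orders at the smooth places -/
theorem dvd_of_not_node {n : ℕ} {x : JZero (M * q)} {b₁ b₂ : modularFunctionFieldFullC k M}
    [CharP k q] [PerfectRing k q] [IsAlgClosed k] [IsFnField k (modularFunctionFieldFullC k M)]
    [FiniteDimensional k⟮RedQ.xj k M⟯ (modularFunctionFieldFullC k M)]
    [Algebra.IsSeparable k⟮RedQ.xj k M⟯ (modularFunctionFieldFullC k M)]
    (hred : HasRed hA hπ hs hM n x b₁ b₂) {η : modularFunctionFieldFullC k M}
    (hη : (η : LaurentSeries k) * (Igusa.deltaC k) ^ (q - 1) = 1)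
    {Q : Place k (modularFunctionFieldFullC k M)}
    (hQ : ¬ (0 ≤ Q.ord (RedQ.xj k M) ∧ 0 < Q.ord η)) :
    (n : ℤ) ∣ Q.ord b₁ ∧ (n : ℤ) ∣ Q.ord b₂ :=
  ⟨Node.hasRed_dvd1 (fun s hs' => hQ
      ((Node.node1_iff (hA := hA) (hπ := hπ) (hs := hs) (hM := hM) hη).1 ⟨s, hs'⟩)) hred,
    Node.hasRed_dvd2 (fun s hs' => hQ
      ((Node.node2_iff (hA := hA) (hπ := hπ) (hs := hs) (hM := hM) hη).1 ⟨s, hs'⟩)) hred⟩

/-- **Eisenstein argument at the rigid level**, every residue characteristic. -/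
theorem dvd_ord_inclK
    [CharP k q] [PerfectRing k q] [IsAlgClosed k] [IsFnField k (modularFunctionFieldFullC k M)]
    [FiniteDimensional k⟮RedQ.xj k M⟯ (modularFunctionFieldFullC k M)]
    [Algebra.IsSeparable k⟮RedQ.xj k M⟯ (modularFunctionFieldFullC k M)]
    (hr : ∃ r : ℕ, r.Prime ∧ r ∣ M ∧ r % 12 = 11) (h : M₀ ∣ M) {x : JZero (M₀ * q)}
    {b₁ b₂ : modularFunctionFieldFullC k M₀} (hred : HasRed hA hπ hs hM₀ q x b₁ b₂)
    (hadd : ∀ s, (q : ℤ) ∣ (place1 (twoLevel hA hπ hs hM) s).ord (inclK k h b₁) +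
      (place2 (twoLevel hA hπ hs hM) s).ord (inclK k h b₂))
    (hc : ∃ c : ℤ, ∀ s, (q : ℤ) ∣ (place2 (twoLevel hA hπ hs hM) s).ord (inclK k h b₂) - c)
    {ℓ : ℕ} [NeZero ℓ] [hlf : Fact ℓ.Prime] (hℓ : ¬ ℓ ∣ M * q) {a : ℤ}
    (ha : ¬ (q : ℤ) ∣ a - (ℓ + 1)) (hTx : heckeOperatorAlong Qb (M₀ * q) ℓ x = a • x)
    (Q : Place k (modularFunctionFieldFullC k M)) :
    (q : ℤ) ∣ Q.ord (inclK k h b₁) ∧ (q : ℤ) ∣ Q.ord (inclK k h b₂) := by
  have hqx : q • x = 0 := hred.smul_eq_zero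
  obtain ⟨c, hc⟩ := hc
  obtain ⟨η, hη, -⟩ := exists_hasse M hA hπ hs hM
  have hR := hasRed_pullJ (hM := hM) h hred
  have hℓM : ¬ ℓ ∣ M := fun hd => hℓ (hd.mul_right q)
  have hMℓ : ¬ q ∣ M * ℓ := by
    intro hd
    rcases hqf.out.dvd_mul.1 hd with h1 | h1
    · exact hM h1
    · rw [Nat.prime_dvd_prime_iff_eq hqf.out (Fact.out : ℓ.Prime)] at h1
      exact hℓ (h1 ▸ dvd_mul_left _ _)
  have hT' : heckeOperatorAlong Qb (M * q) ℓ (pullJ q h x) = a • pullJ q h x := by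
    have hlq : ¬ ℓ ∣ q := fun hd => hℓ (hd.mul_left M)
    have key : ∀ {L : ℕ}, L ∣ M → ¬ ℓ ∣ L * q * q := by
      intro L hL hd
      rcases (Fact.out : ℓ.Prime).dvd_mul.1 hd with h1 | h1
      · rcases (Fact.out : ℓ.Prime).dvd_mul.1 h1 with h2 | h2
        · exact hℓM (h2.trans hL)
        · exact hlq h2
      · exact hlq h1
    have h1 := hecke_map (p := q) (pullJ q h) (pullJ_smul q h) (l := ⟨ℓ, Fact.out⟩) (key h)
      (key dvd_rfl) hqx
    have h2 : heckeOperatorBar (M₀ * q) ⟨ℓ, Fact.out⟩ x = a • x := hTx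
    rw [h2, map_zsmul] at h1
    exact h1
  have h12 : ∀ Q : Place k (modularFunctionFieldFullC k M), 0 ≤ Q.ord (RedQ.xj k M) →
      0 < Q.ord η → Q.ord η = 12 := fun Q h1 h2 => Node.ord_hasse_eq hr hA hπ hs hM h1 hη h2
  have hc2 : ∀ Q : Place k (modularFunctionFieldFullC k M), 0 ≤ Q.ord (RedQ.xj k M) →
      0 < Q.ord η → (q : ℤ) ∣ Q.ord (inclK k h b₂) - c := by
    intro Q h1 h2
    obtain ⟨s, rfl⟩ := (Node.node2_iff (hA := hA) (hπ := hπ) (hs := hs) (hM := hM) hη).2 ⟨h1, h2⟩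
    exact hc s
  have hc1 : ∀ Q : Place k (modularFunctionFieldFullC k M), 0 ≤ Q.ord (RedQ.xj k M) →
      0 < Q.ord η → (q : ℤ) ∣ Q.ord (inclK k h b₁) - -c := by
    intro Q h1 h2
    obtain ⟨s, rfl⟩ := (Node.node1_iff (hA := hA) (hπ := hπ) (hs := hs) (hM := hM) hη).2 ⟨h1, h2⟩
    have h4 := dvd_sub (hadd s) (hc s)
    have e4 : (place1 (twoLevel hA hπ hs hM) s).ord (inclK k h b₁) - -c =
      (place1 (twoLevel hA hπ hs hM) s).ord (inclK k h b₁) +
        (place2 (twoLevel hA hπ hs hM) s).ord (inclK k h b₂) -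
        ((place2 (twoLevel hA hπ hs hM) s).ord (inclK k h b₂) - c) := by ring
    rw [e4]
    exact h4
  by_cases hQ : 0 ≤ Q.ord (RedQ.xj k M) ∧ 0 < Q.ord η
  swap
  · exact dvd_of_not_node hR hη hQ
  -- the Eisenstein argument
  have hqp : Prime (q : ℤ) := Nat.prime_iff_prime_int.1 hqf.out
  have hqc : (q : ℤ) ∣ -c := by
    have h1 := HasRed.slope_hecke hMℓ hℓ hqf.out.ne_zero hR (b₁' := inclK k h b₁ ^ a)
      (b₂' := inclK k h b₂ ^ a) (by rw [hT']; exact HasRed.zsmul hR a) hη h12 (-c) hc1 Q hQ.1 hQ.2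
    rw [Place.ord_zpow] at h1
    have h2 := (hc1 Q hQ.1 hQ.2).mul_left a
    have h3 : (q : ℤ) ∣ (a - (ℓ + 1)) * -c := by
      have h4 := dvd_sub h1 h2
      have e : a * Q.ord (inclK k h b₁) - (ℓ + 1) * -c - a * (Q.ord (inclK k h b₁) - -c) =
        (a - (ℓ + 1)) * -c := by ring
      rwa [e] at h4
    exact (hqp.dvd_or_dvd h3).resolve_left ha
  have hqc' : (q : ℤ) ∣ c := by rwa [dvd_neg] at hqc
  have h1 := dvd_add (hc1 Q hQ.1 hQ.2) hqc
  have h2 := dvd_add (hc2 Q hQ.1 hQ.2) hqc'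
  rw [sub_add_cancel] at h1 h2
  exact ⟨h1, h2⟩

end Level

end Fermat.Agent.MazG
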