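import Fermat.Agent.MazG.Kummer
import Fermat.Agent.MazurS.Index
import Fermat.Agent.ECRep.Odd
import Fermat.Agent.ECRep.FlatBase
import Fermat.Agent.ECRep.FlatAt
import Fermat.Agent.LL.FlatGlue

/-!
# The field of `W[p]` at a place over `p` where `W[p]` is ordinary (and flat)
-/

set_option autoImplicit false
set_option linter.style.haveILetI false

open Matrix WeierstrassCurve Fermat.Agent Fermat.Agent.ECRep Fermat.Agent.DefRing
  Fermat.Agent.MazurS Fermat.Agent.MazurP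

namespace Fermat.Agent.MazG

local notation "Γℚ" => (AlgebraicClosure ℚ ≃ₐ[ℚ] AlgebraicClosure ℚ)
local notation "Qb" => AlgebraicClosure ℚ

variable (W : WeierstrassCurve ℤ) (p : ℕ) [Fact p.Prime]

/-- the inertia group at `A` acts on `W[p]` by matrices `(* *; 0 1)` in some basis -/
def OrdBasis (hΔ : W.Δ ≠ 0) (A : ValuationSubring Qb) : Prop :=
  ∃ r : Γℚ → Matrix (Fin 2) (Fin 2) (ZMod p),
    RealizesRes (resRep (toRat W) p (toRat_Δ_ne_zero hΔ)) r ∧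
      ∀ σ ∈ A.inertiaSubgroupIn ℚ, r σ 1 0 = 0 ∧ r σ 1 1 = 1

variable {W p}

/-- the matrices of `MazurS.exists_adapted` (multiplicative reduction at `p`) -/
theorem ordBasis_of_mult (hΔ : W.Δ ≠ 0) (hpΔ : (p : ℤ) ∣ W.Δ) (hc : ¬ (p : ℤ) ∣ W.c₄)
    {A : ValuationSubring Qb} (hA : A.LiesOverPrime p) : OrdBasis W p hΔ A := by
  obtain ⟨r, hr, h0, h1⟩ := exists_adapted W hΔ hpΔ hc hA
  refine ⟨r, hr, fun σ hσ => ⟨h0 σ ?_, h1 σ hσ⟩⟩
  obtain ⟨τ, -, hτ⟩ := hσ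
  rw [← hτ]
  exact τ.2

/-- from the strict ordinary condition -/
theorem ordBasis_of_ordMat (hΔ : W.Δ ≠ 0) {A : ValuationSubring Qb}
    {r : Γℚ → Matrix (Fin 2) (Fin 2) (ZMod p)}
    (hr : RealizesRes (resRep (toRat W) p (toRat_Δ_ne_zero hΔ)) r)
    (h : TW.OrdMat p A r) : OrdBasis W p hΔ A := by
  refine ⟨r, hr, fun σ hσ => ⟨h.dec σ ?_, h.ine σ hσ⟩⟩
  obtain ⟨τ, -, hτ⟩ := hσ
  rw [← hτ]
  exact τ.2

theorem mem_inertiaU_iff_of_realizes (hΔ : W.Δ ≠ 0) {A : ValuationSubring Qb}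
    {r : Γℚ → Matrix (Fin 2) (Fin 2) (ZMod p)}
    (hr : RealizesRes (resRep (toRat W) p (toRat_Δ_ne_zero hΔ)) r) {σ : Γℚ} :
    σ ∈ inertiaU W p A ↔ σ ∈ A.inertiaSubgroupIn ℚ ∧ r σ = 1 := by
  rw [mem_inertiaU]
  refine and_congr_right fun hσ => ?_
  obtain ⟨b, hb⟩ := hr
  rw [← hb]
  constructor
  · intro h
    have h2 : (resRep (toRat W) p (toRat_Δ_ne_zero hΔ)).ρ (σ : Γℚ) = 1 :=
      LinearMap.ext fun v => h v
    rw [h2]
    exact LinearMap.toMatrix_one b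
  · intro h v
    have h2 : (resRep (toRat W) p (toRat_Δ_ne_zero hΔ)).ρ (σ : Γℚ) = 1 := by
      apply (LinearMap.toMatrix b b).injective
      rw [h]
      exact (LinearMap.toMatrix_one b).symm
    exact LinearMap.congr_fun h2 v

/-- **(B1)** the index of the group of the field of `W[p]` in the inertia group -/
theorem index_of_ordBasis (hΔ : W.Δ ≠ 0) {A : ValuationSubring Qb} (h : OrdBasis W p hΔ A) :
    ((inertiaU W p A).subgroupOf (A.inertiaSubgroupIn ℚ)).FiniteIndex ∧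
      ((inertiaU W p A).subgroupOf (A.inertiaSubgroupIn ℚ)).index ≤ p * (p - 1) := by
  have hp := (Fact.out : p.Prime)
  obtain ⟨r, hr, h01⟩ := h
  let RM : Γℚ →* Matrix (Fin 2) (Fin 2) (ZMod p) :=
    { toFun := r, map_one' := hr.map_one, map_mul' := hr.map_mul }
  let f : A.inertiaSubgroupIn ℚ →* GL (Fin 2) (ZMod p) :=
    RM.toHomUnits.comp (A.inertiaSubgroupIn ℚ).subtype
  have hf : ∀ σ, ((f σ : GL (Fin 2) (ZMod p)) : Matrix (Fin 2) (Fin 2) (ZMod p)) = r σ :=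
    fun σ => rfl
  have hker : (inertiaU W p A).subgroupOf (A.inertiaSubgroupIn ℚ) = f.ker := by
    ext σ
    rw [Subgroup.mem_subgroupOf, MonoidHom.mem_ker, ← Units.val_inj, hf, Units.val_one,
      mem_inertiaU_iff_of_realizes hΔ hr]
    exact ⟨fun h => h.2, fun h => ⟨σ.2, h⟩⟩
  let g : f.range → (ZMod p)ˣ × ZMod p := fun x =>
    (Matrix.GeneralLinearGroup.det (x : GL (Fin 2) (ZMod p)),
      (x : GL (Fin 2) (ZMod p)).1 0 1)
  have hg : Function.Injective g := by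
    rintro ⟨x, σ, rfl⟩ ⟨y, τ, rfl⟩ hxy
    have e1 : (r σ).det = (r τ).det := by
      have := congrArg (fun z : (ZMod p)ˣ × ZMod p => (z.1 : ZMod p)) hxy
      exact this
    have e2 : r σ 0 1 = r τ 0 1 := congrArg Prod.snd hxy
    have hd : ∀ σ : A.inertiaSubgroupIn ℚ, (r σ).det = r σ 0 0 := fun σ => by
      rw [Matrix.det_fin_two, (h01 σ σ.2).1, (h01 σ σ.2).2]
      ring
    rw [hd, hd] at e1
    apply Subtype.ext
    apply Units.ext
    rw [hf, hf]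
    ext i j
    fin_cases i <;> fin_cases j
    · exact e1
    · exact e2
    · exact (h01 σ σ.2).1.trans (h01 τ τ.2).1.symm
    · exact (h01 σ σ.2).2.trans (h01 τ τ.2).2.symm
  have hcard : Nat.card f.range ≤ p * (p - 1) := by
    refine (Nat.card_le_card_of_injective g hg).trans ?_
    rw [Nat.card_prod, Nat.card_zmod, Nat.card_eq_fintype_card, ZMod.card_units_eq_totient,
      Nat.totient_prime hp, mul_comm]
  have hfin : Finite f.range := Finite.of_injective g hg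
  rw [hker]
  refine ⟨⟨?_⟩, ?_⟩
  · rw [Subgroup.index_ker]
    exact Nat.card_pos.ne'
  · rw [Subgroup.index_ker]
    exact hcard

/-- **(B2)** the field of `W[p]` is peu ramifiée at an ordinary place if `W[p]` is flat at `p`. -/
theorem peu_of_ordBasis_flat (hp2 : p ≠ 2) (hΔ : W.Δ ≠ 0) {A : ValuationSubring Qb}
    (hA : A.LiesOverPrime p) (h : OrdBasis W p hΔ A)
    (hflat : (GaloisRepAdic.ofResidualGaloisRep
      (resRep (toRat W) p (toRat_Δ_ne_zero hΔ))).IsFlatAt p) {t : A} (ht0 : t ≠ 0)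
    (htp : AU A ((t : Qb) ^ (p - 1) / (p : Qb))) : PEU A p (inertiaU W p A) t := by
  have hp3 : 3 ≤ p := by
    have := (Fact.out : p.Prime).two_le
    omega
  obtain ⟨hfin, hidx⟩ := index_of_ordBasis hΔ h
  obtain ⟨r, hr, h01⟩ := h
  obtain ⟨w, hw1, hw2, hw3, hw4⟩ := exists_kummer hr hflat (detIsCyclotomic_resRep W p hΔ) hA
    (fun σ hσ => (h01 σ hσ).1) (fun σ hσ => (h01 σ hσ).2)
  refine peu_of_kummer hp3 hA hw1 hw2 (fun σ hσ => ((mem_inertiaU W p).1 hσ).1)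
    (fun σ hσ => ?_) (fun σ hσ hμ hfix => ?_) hfin hidx ht0 htp
  · exact hw3 σ hσ.1 ((mem_inertiaU_iff_of_realizes hΔ hr).1 hσ).2
  · exact (mem_inertiaU_iff_of_realizes hΔ hr).2 ⟨hσ, hw4 σ hσ hμ hfix⟩

/-- flatness depends only on the matrices -/
theorem isFlatAt_of_realizes {A : Type} [CommRing A] [IsLocalRing A] {ρ ρ' : GaloisRepAdic A}
    {r : Γℚ → Matrix (Fin 2) (Fin 2) A} (h : Realizes ρ r) (h' : Realizes ρ' r) {p : ℕ}
    (hfl : ρ.IsFlatAt p) : ρ'.IsFlatAt p :=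
  (LL.isFlatAt_iff_mv h' p).2 ((LL.isFlatAt_iff_mv h p).1 hfl)

/-- `W[p]` is flat at a prime `p ≠ 2` of good reduction -/
theorem isFlatAt_resRep (hp2 : p ≠ 2) (hΔ : W.Δ ≠ 0) (hpΔ : ¬ (p : ℤ) ∣ W.Δ) :
    (GaloisRepAdic.ofResidualGaloisRep
      (resRep (toRat W) p (toRat_Δ_ne_zero hΔ))).IsFlatAt p := by
  have h1 := isFlatAt (l := p) hp2 hΔ hpΔ
  haveI : Finite (IsLocalRing.ResidueField (ZMod p)) :=
    Finite.of_surjective _ (IsLocalRing.residue_surjective (R := ZMod p))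
  have hφ : IsLocalHom (PadicInt.toZMod (p := p)) := by
    refine ⟨fun x hx => ?_⟩
    by_contra hcon
    have h2 : x ∈ IsLocalRing.maximalIdeal ℤ_[p] := hcon
    rw [← PadicInt.ker_toZMod, RingHom.mem_ker] at h2
    rw [h2] at hx
    exact not_isUnit_zero hx
  have h2 := isFlatAt_baseChangeAlong (PadicInt.toZMod (p := p)) hφ h1
  obtain ⟨r, b, hb⟩ := exists_realizes (tateRep (toRat W) p (toRat_Δ_ne_zero hΔ))
  obtain ⟨b', hb'⟩ := exists_basis_mod (toRat_Δ_ne_zero hΔ) (pow_one p).symm PadicInt.toZMod b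
  have h3 : RealizesRes (resRep (toRat W) p (toRat_Δ_ne_zero hΔ))
      (fun σ => (r σ).map PadicInt.toZMod) := ⟨b', fun σ => by
    have h5 := toMatrix_mod (pow_one p).symm PadicInt.toZMod b b' hb' σ
    have h6 : LinearMap.toMatrix b b (tateGal (toRat W) p σ) = r σ := hb σ
    exact h5.trans (congrArg (fun M : Matrix (Fin 2) (Fin 2) ℤ_[p] => M.map PadicInt.toZMod) h6)⟩
  have h4 : Realizes (tateRep (toRat W) p (toRat_Δ_ne_zero hΔ)) r := ⟨b, hb⟩
  exact isFlatAt_of_realizes (h4.baseChange (PadicInt.toZMod (p := p)) hφ)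
    (Realizes.ofResidual h3) h2

/-- **(B2), good reduction** -/
theorem peu_of_ordBasis (hp2 : p ≠ 2) (hΔ : W.Δ ≠ 0) (hpΔ : ¬ (p : ℤ) ∣ W.Δ)
    {A : ValuationSubring Qb} (hA : A.LiesOverPrime p) (h : OrdBasis W p hΔ A) :
    ∀ t : A, t ≠ 0 → AU A ((t : Qb) ^ (p - 1) / (p : Qb)) → PEU A p (inertiaU W p A) t :=
  fun _ ht0 htp => peu_of_ordBasis_flat hp2 hΔ hA h (isFlatAt_resRep hp2 hΔ hpΔ) ht0 htp

end Fermat.Agent.MazG
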