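import Fermat.Agent.MazurS.PeuField

/-!
# Peu ramifiée extensions from a Kummer generator

Let `A` be a place over the odd prime `p`, `U` a subgroup of the inertia group `I`, and `w` a unit
of `A` with `w ^ p` in the fixed field of `I`, such that `U` is the subgroup of `I` fixing `w` and
the `p`-th roots of unity (the second condition being needed in one direction only).
-/

set_option autoImplicit false
set_option linter.style.haveILetI false

namespace Fermat.Agent.MazG

open Fermat.Agent.MazurP Fermat.Agent.Peu Fermat.Agent.MazurS Fermat.Agent.Pts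

local notation "Qb" => AlgebraicClosure ℚ
local notation "Γℚ" => (AlgebraicClosure ℚ ≃ₐ[ℚ] AlgebraicClosure ℚ)

variable {p : ℕ} [hpF : Fact p.Prime] {A : ValuationSubring Qb}

/-- **Peu ramifiée from a unit Kummer generator** -/
theorem peu_of_kummer (hp3 : 3 ≤ p) (hA : A.LiesOverPrime p) {w : Qb}
    (hw1 : A.valuation w = 1) (hu : ∀ σ ∈ A.inertiaSubgroupIn ℚ, σ (w ^ p) = w ^ p)
    {U : Subgroup Γℚ} (hUI : ∀ σ ∈ U, σ ∈ A.inertiaSubgroupIn ℚ) (hwU : ∀ σ ∈ U, σ w = w)
    (hU : ∀ σ ∈ A.inertiaSubgroupIn ℚ, (∀ ζ : Qb, ζ ^ p = 1 → σ ζ = ζ) → σ w = w → σ ∈ U)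
    (hfin : (U.subgroupOf (A.inertiaSubgroupIn ℚ)).FiniteIndex)
    (hidx : (U.subgroupOf (A.inertiaSubgroupIn ℚ)).index ≤ p * (p - 1)) {t : A} (ht0 : t ≠ 0)
    (htp : AU A ((t : Qb) ^ (p - 1) / (p : Qb))) : PEU A p U t := by
  classical
  have hp := hpF.out
  have h2 := hp.two_le
  have hp0 : (p : Qb) ≠ 0 := by exact_mod_cast hp.ne_zero
  have ht0' : (t : Qb) ≠ 0 := by simpa using ht0
  have hP1 : A.valuation (p : Qb) < 1 := v_lt_one_of_lies hA
  have hP0 : 0 < A.valuation (p : Qb) := by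
    rw [zero_lt_iff, Ne, _root_.map_eq_zero]
    exact hp0
  have hT : A.valuation (t : Qb) ^ (p - 1) = A.valuation (p : Qb) := by
    have h3 := v_of_AU (div_ne_zero (pow_ne_zero _ ht0') hp0) htp
    rw [map_div₀, _root_.map_pow] at h3
    exact (div_eq_one_iff_eq hP0.ne').1 h3
  have hT0 : A.valuation (t : Qb) ≠ 0 := by rw [Ne, _root_.map_eq_zero]; exact ht0'
  have hT1 : A.valuation (t : Qb) < 1 := by
    by_contra hcon
    push Not at hcon
    have h3 := one_le_pow₀ (n := p - 1) hcon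
    rw [hT] at h3
    exact absurd hP1 (not_lt.2 h3)
  obtain ⟨u, hu'⟩ : ∃ u, u = w ^ p := ⟨_, rfl⟩
  rw [← hu'] at hu
  have hw0 : w ≠ 0 := by
    rintro rfl
    rw [_root_.map_zero] at hw1
    exact zero_ne_one hw1
  -- the equation
  have hwv : A.valuation (w ^ p - u) ≤ A.valuation (p : Qb) ^ 2 := by
    rw [hu', sub_self, _root_.map_zero]
    exact zero_le
  -- lifts
  have hlift : ∀ x : Qb, A.valuation x ≤ 1 → ∃ x₀ : Qb, (∀ σ ∈ A.inertiaSubgroupIn ℚ, σ x₀ = x₀) ∧
      A.valuation (x - x₀) < 1 := by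
    intro x hx
    have hxA := (A.valuation_le_one_iff _).1 hx
    obtain ⟨a, ha, hfix⟩ := QComp.exists_fixed_lift hA (residue_zero_iff A)
      IsLocalRing.residue_surjective (IsLocalRing.residue A ⟨x, hxA⟩)
    refine ⟨a, hfix, ?_⟩
    have h3 : IsLocalRing.residue A (⟨x, hxA⟩ - a) = 0 := by rw [_root_.map_sub, ha, sub_self]
    rw [IsLocalRing.residue_eq_zero_iff] at h3
    exact (A.valuation_lt_one_iff _).1 h3
  obtain ⟨w₀, hw₀, hww₀⟩ := hlift w hw1.le
  have hw₀1 : A.valuation w₀ = 1 := by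
    have h1 : w₀ = w - (w - w₀) := by ring
    rw [h1, ← hw1]
    exact A.valuation.map_sub_eq_of_lt_left (by rw [hw1]; exact hww₀)
  have hw₀0 : w₀ ≠ 0 := by
    rintro rfl
    rw [_root_.map_zero] at hw₀1
    exact zero_ne_one hw₀1
  -- the subfields
  let K₀ : Subfield Qb := (IntermediateField.fixedField (A.inertiaSubgroupIn ℚ)).toSubfield
  let L : Subfield Qb := (IntermediateField.fixedField U).toSubfield
  have hK₀ : ∀ x, x ∈ K₀ ↔ ∀ σ ∈ A.inertiaSubgroupIn ℚ, σ x = x := fun x =>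
    IntermediateField.mem_fixedField_iff _ _
  have hL : ∀ x, x ∈ L ↔ ∀ σ ∈ U, σ x = x := fun x => IntermediateField.mem_fixedField_iff _ _
  have hKL : K₀ ≤ L := fun x hx => (hL x).2 fun σ hσ => (hK₀ x).1 hx σ (hUI σ hσ)
  intro a m η α ha0 haU hη hηI haη
  have hη1 : A.valuation (η : Qb) = 1 := (A.valuation_eq_one_iff η).1 hη
  have hε : A.valuation ((1 + (t : Qb) * α) - 1) ≤ A.valuation (t : Qb) := by
    rw [add_sub_cancel_left]
    exact v_mul_le le_rfl ((A.valuation_le_one_iff _).2 α.2)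
  by_cases hD : A.valuation (u - w₀ ^ p) = A.valuation (p : Qb)
  · exact caseA hp hKL (fun x hx hx0 => exists_zpow_K₀ hA hx0 ((hK₀ x).1 hx))
      (fun e he he1 => v_pow_le hA hfin hidx hT ((hL e).1 he) he1)
      (fun x hx => by
        obtain ⟨x₀, h3, h4⟩ := hlift x hx
        exact ⟨x₀, (hK₀ x₀).2 h3, h4⟩) hp0 hP1 hT ((hL w).2 hwU) hw1 ((hK₀ u).2 hu) hwv
      ((hK₀ w₀).2 hw₀) hww₀ hD ha0 ((hL a).2 haU) ((hK₀ _).2 hηI) hη1 hε haη
  -- case B
  have hD2 : A.valuation (u - w₀ ^ p) ≤ A.valuation (p : Qb) ^ 2 := by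
    by_cases hD0 : u - w₀ ^ p = 0
    · rw [hD0, _root_.map_zero]
      exact zero_le
    obtain ⟨j, hj⟩ := exists_zpow_K₀ hA hD0 (fun σ hσ => by
      rw [_root_.map_sub, _root_.map_pow, hu σ hσ, hw₀ σ hσ])
    have hD1 : A.valuation (u - w₀ ^ p) < 1 := by
      have h3 : u - w₀ ^ p = (w ^ p - w₀ ^ p) - (w ^ p - u) := by ring
      rw [h3]
      refine (A.valuation.map_sub _ _).trans_lt (max_lt ?_ ?_)
      · rw [← Commute.geom_sum₂_mul (Commute.all w w₀), mul_comm]
        refine (v_mul_le le_rfl ?_).trans_lt hww₀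
        rw [A.valuation_le_one_iff]
        exact sum_mem fun i _ => mul_mem (pow_mem ((A.valuation_le_one_iff _).1 hw1.le) _)
          (pow_mem ((A.valuation_le_one_iff _).1 hw₀1.le) _)
      · refine hwv.trans_lt ?_
        exact pow_lt_one₀ zero_le hP1 two_ne_zero
    have hj2 : 2 ≤ j := by
      by_contra hcon
      have h3 : j ≤ 1 := by omega
      rcases h3.lt_or_eq with h4 | h4
      · have h5 : 1 ≤ A.valuation (p : Qb) ^ j := by
          have := zpow_le_zpow_right_of_le_one₀ hP0 hP1.le (show j ≤ 0 by omega)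
          rwa [zpow_zero] at this
        rw [hj] at hD1
        exact absurd hD1 (not_lt.2 h5)
      · rw [h4, zpow_one] at hj
        exact hD hj
    rw [hj]
    have := zpow_le_zpow_right_of_le_one₀ hP0 hP1.le hj2
    exact_mod_cast this
  -- the root of unity
  haveI : NeZero p := ⟨hp.ne_zero⟩
  haveI : NeZero (p : Qb) := ⟨hp0⟩
  obtain ⟨ζ₀, hζ₀⟩ := HasEnoughRootsOfUnity.exists_primitiveRoot Qb p
  have hTr : ∀ ζ : Qb, ζ ^ p = 1 → ζ ≠ 1 → A.valuation (1 - ζ) = A.valuation (t : Qb) := by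
    intro ζ h3 h4
    have h5 := v_one_sub_root (A := A) h3 h4
    rw [← hT] at h5
    exact (pow_left_inj₀ zero_le zero_le (by omega)).1 h5
  obtain ⟨ζ, hζ, hζw⟩ := exists_root_near A.valuation hp hζ₀ hT0 hTr (ω := w / w₀) (by
    rw [hT]
    have h3 : (w / w₀) ^ p - 1 = ((w ^ p - u) + (u - w₀ ^ p)) / w₀ ^ p := by
      rw [div_pow]
      field_simp
      ring
    rw [h3, map_div₀, _root_.map_pow A.valuation w₀, hw₀1, one_pow, div_one]
    exact v_add_le hwv hD2)
  rw [hT] at hζw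
  have hwζ : A.valuation (w - ζ * w₀) ≤ A.valuation (p : Qb) := by
    have h3 : w - ζ * w₀ = (w / w₀ - ζ) * w₀ := by field_simp
    rw [h3]
    exact v_mul_le hζw hw₀1.le
  obtain ⟨V, hV, hVfin, hVidx⟩ := exists_mu_subgroup A p
  have hVU : V ≤ U := by
    intro σ hσ
    obtain ⟨hσI, hσμ⟩ := hV σ hσ
    refine hU σ hσI hσμ ?_
    by_contra hne
    have h3 : σ w - w = σ (w - ζ * w₀) - (w - ζ * w₀) := by
      rw [_root_.map_sub, _root_.map_mul, hσμ ζ hζ, hw₀ σ hσI]
      ring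
    have h4 : A.valuation (σ w - w) ≤ A.valuation (p : Qb) := by
      rw [h3]
      exact v_sub_le (by rw [v_le_of_inertia hσI]; exact hwζ) hwζ
    have h5 : (σ w / w) ^ p = 1 := by
      rw [div_pow, ← _root_.map_pow, ← hu', hu σ hσI, div_self]
      rw [hu']
      exact pow_ne_zero _ hw0
    have h6 : σ w / w ≠ 1 := fun h => hne ((div_eq_one_iff_eq hw0).1 h)
    have h7 := hTr _ h5 h6
    have h8 : A.valuation (σ w - w) = A.valuation (t : Qb) := by
      have h9 : σ w - w = -(w * (1 - σ w / w)) := by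
        field_simp
        ring
      rw [h9, A.valuation.map_neg, _root_.map_mul, hw1, one_mul, h7]
    rw [h8, ← hT] at h4
    have h10 : A.valuation (t : Qb) ^ (p - 1) < A.valuation (t : Qb) := by
      obtain ⟨k, hk⟩ : ∃ k, p - 1 = k + 2 := ⟨p - 3, by omega⟩
      rw [hk, pow_succ]
      conv_rhs => rw [← one_mul (A.valuation (t : Qb))]
      exact mul_lt_mul_of_pos_right (pow_lt_one₀ zero_le hT1 (by omega)) (zero_lt_iff.2 hT0)
    exact absurd h10 (not_lt.2 h4)
  obtain ⟨m', hm'⟩ := exists_zpow_index hA hVfin ha0 fun σ hσ => haU σ (hVU hσ)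
  have hεu : A.valuation (1 + (t : Qb) * α) = 1 := by
    refine A.valuation.map_one_add_of_lt ?_
    exact (v_mul_le le_rfl ((A.valuation_le_one_iff _).2 α.2)).trans_lt hT1
  have hva : A.valuation a ^ p = A.valuation (p : Qb) ^ m := by
    have h3 := congrArg A.valuation haη
    rwa [_root_.map_pow, _root_.map_mul, _root_.map_mul, hη1, hεu, mul_one, mul_one,
      map_zpow₀] at h3
  set N := (V.subgroupOf (A.inertiaSubgroupIn ℚ)).index with hN
  have h3 : A.valuation (p : Qb) ^ (m * (N : ℤ)) = A.valuation (p : Qb) ^ (m' * (p : ℤ)) := by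
    rw [zpow_mul, zpow_mul, ← hva, ← hm', zpow_natCast, zpow_natCast, ← pow_mul, ← pow_mul,
      mul_comm]
  have h4 : m * (N : ℤ) = m' * (p : ℤ) := zpow_right_injective₀ hP0 hP1.ne h3
  have h5 : (p : ℤ) ∣ m * (N : ℤ) := ⟨m', by rw [h4]; ring⟩
  rcases (Nat.prime_iff_prime_int.1 hp).dvd_or_dvd h5 with h6 | h6
  · exact h6
  · exact absurd (by exact_mod_cast h6) hVidx

end Fermat.Agent.MazG
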