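import Fermat.Agent.MazurP.HeckeSlope

/-!
# Specialisation of places and the two degeneracy maps

A place `w` of `X₀(M ℓ)` in characteristic `q` with `ord_w(j) > 0` not divisible by `n` is the
specialisation of a place `P` of characteristic zero with `ord_P(j) > 0` not divisible by `n`;
if the two degeneracy maps agree at all these `P`, they agree at `w`.
-/

set_option autoImplicit false
set_option linter.unusedSectionVars false
set_option linter.style.haveILetI false
set_option linter.unusedVariables false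

noncomputable section

open AlgebraicCurve IntermediateField Module ModularCurve

namespace Fermat.Agent.MazG

open Fermat.Agent.FF Fermat.Agent.Red Fermat.Agent.QVal Fermat.Agent.QComp Fermat.Agent.JZ
  Fermat.Agent.MazurP

local notation "Qb" => AlgebraicClosure ℚ

section Abs

/-- transitivity of integrality over `K[x]` -/
theorem isIntegral_adjoin_trans {K F : Type*} [Field K] [Field F] [Algebra K F] {x y z : F}
    (hy : IsIntegral (Algebra.adjoin K {x}) y) (hz : IsIntegral (Algebra.adjoin K {y}) z) :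
    IsIntegral (Algebra.adjoin K {x}) z := by
  let B : Subalgebra (Algebra.adjoin K {x}) F := integralClosure (Algebra.adjoin K {x}) F
  have hB : ∀ w ∈ Algebra.adjoin K {y}, w ∈ B := by
    intro w hw
    induction hw using Algebra.adjoin_induction with
    | mem w hw =>
      rw [Set.mem_singleton_iff.1 hw]
      exact hy
    | algebraMap r => exact isIntegral_const x r
    | add a b _ _ ha hb => exact B.add_mem ha hb
    | mul a b _ _ ha hb => exact B.mul_mem ha hb
  obtain ⟨p, hp, h0⟩ := hz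
  have h1 : IsIntegral B z := by
    let g : Algebra.adjoin K {y} →+* B :=
      { toFun := fun w => ⟨w, hB w w.2⟩
        map_one' := rfl
        map_mul' := fun _ _ => rfl
        map_zero' := rfl
        map_add' := fun _ _ => rfl }
    refine ⟨p.map g, hp.map g, ?_⟩
    rw [Polynomial.eval₂_map]
    exact h0
  haveI : Algebra.IsIntegral (Algebra.adjoin K {x}) B := integralClosure.AlgebraIsIntegral
  exact isIntegral_trans z h1

theorem hasVal_restrictAlong {K F F' : Type*} [Field K] [Field F] [Field F'] [Algebra K F]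
    [Algebra K F'] [IsAlgClosed K] [IsFnField K F] [IsFnField K F'] (φ : F →ₐ[K] F')
    (hφ : φ.toRingHom.IsIntegral) {P : Place K F'} {f : F} {c : K} :
    HasVal P (φ f) c ↔ HasVal (P.restrictAlong φ hφ) f c := by
  letI := algebraAlong φ
  haveI := isScalarTower_along φ
  haveI := isIntegral_along φ hφ
  exact hasVal_restrict

variable {K k : Type*} [Field K] [Field k] {A : ValuationSubring K} {π : A →+* k}
  {F Fk F' Fk' : Type*} [Field F] [Algebra K F] [Field Fk] [Algebra k Fk]
  [Field F'] [Algebra K F'] [Field Fk'] [Algebra k Fk']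
  {R : ConstRed A π F Fk} {R' : ConstRed A π F' Fk'}
  [IsAlgClosed K] [IsFnField K F] [IsAlgClosed k] [IsFnField k Fk]
  [IsFnField K F'] [IsFnField k Fk']

/-- the specialisation of places commutes with restriction -/
theorem sp_restrictAlong {x : F} {xb : Fk} {x' : F'} {xb' : Fk'} (hx : R.IsRed x xb)
    (φ : F →ₐ[K] F') (φk : Fk →ₐ[k] Fk')
    (hcomp : ∀ f z, R.IsRed f z → R'.IsRed (φ f) (φk z)) (hφ : φ.toRingHom.IsIntegral)
    (hφk : φk.toRingHom.IsIntegral) (hint : IsIntegral (Algebra.adjoin K {x'}) (φ x))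
    {P : Place K F'} {Q : Place k Fk'} (h : Sp R' x' xb' P Q) :
    Sp R x xb (P.restrictAlong φ hφ) (Q.restrictAlong φk hφk) := by
  have key : ∀ (f : F) (z : Fk) (c : K), R.IsRed f z → IsIntegral (Algebra.adjoin K {x}) f →
      HasVal (P.restrictAlong φ hφ) f c →
      ∃ h : c ∈ A, HasVal (Q.restrictAlong φk hφk) z (π ⟨c, h⟩) := by
    intro f z c hf hfi hc
    obtain ⟨h1, h2⟩ := h.2.2 (φ f) (φk z) c (hcomp f z hf)
      (isIntegral_adjoin_trans hint (isInt_transport φ hfi)) ((hasVal_restrictAlong φ hφ).2 hc)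
    exact ⟨h1, (hasVal_restrictAlong φk hφk).1 h2⟩
  have hx0 : 0 ≤ (P.restrictAlong φ hφ).ord x := by
    obtain ⟨a, ha⟩ := h.1
    have h1 : 0 ≤ P.ord (φ x) := ord_nonneg_of_mem _ (mem_of_isIntegral P ha.nonneg hint)
    obtain ⟨c, hc⟩ := exists_hasVal h1
    exact ((hasVal_restrictAlong φ hφ).1 hc).nonneg
  obtain ⟨c, hc⟩ := exists_hasVal hx0
  obtain ⟨h1, h2⟩ := key x xb c hx (isIntegral_self x) hc
  exact ⟨⟨⟨c, h1⟩, hc⟩, h2.nonneg, key⟩

/-- places with `ord(x)` not divisible by `n` lift to such places -/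
theorem exists_sp_not_dvd {x : F} {xb : Fk} (hC : Chart R x xb) (hC' : Chart R x⁻¹ xb⁻¹)
    (hπ : Function.Surjective π) (n : ℤ) {Q : Place k Fk} (hQ : 0 ≤ Q.ord xb)
    (hn : ¬ n ∣ Q.ord xb) : ∃ P : Place K F, Sp R x xb P Q ∧ ¬ n ∣ P.ord x ∧ 0 < P.ord x := by
  classical
  haveI : HasPrincipalDivisors K F := RR.hasPrincipalDivisors K F
  have hx0 : x ≠ 0 := transcendental_ne_zero hC.transcendental
  obtain ⟨D, hD, -⟩ := HasPrincipalDivisors.exists_divisor (K := K) x hx0
  have h1 := (specOf hC hC' hπ).ord_eq x xb hC.isCoord.isRed hC.isCoord.ne_zero D hD Q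
  rw [mapDomain_apply_sum] at h1
  by_contra hcon
  push Not at hcon
  apply hn
  rw [← h1]
  refine Finset.dvd_sum fun P hP => ?_
  rw [hD]
  by_contra hP'
  have hS : Sp R x xb P Q := (spec_eq_iff hC hC' hQ).1 (Finset.mem_filter.1 hP).2
  have h2 := hcon P hS hP'
  obtain ⟨a, ha⟩ := hS.1
  have h3 : P.ord x = 0 := le_antisymm h2 ha.nonneg
  exact hP' (h3 ▸ dvd_zero n)

end Abs

section Level

variable {k : Type*} [Field k] {A : ValuationSubring Qb} {π : A →+* k} {M q ℓ : ℕ} [NeZero M]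
  [NeZero q] [NeZero ℓ] [hqf : Fact q.Prime] [hlf : Fact ℓ.Prime]
  (hA : A.LiesOverPrime q) (hπ : ∀ a : A, π a = 0 ↔ ¬ IsUnit a)
  (hs : Function.Surjective π)

include hA hπ hs in
/-- **Reduction of the coincidences of the two degeneracy maps.** -/
theorem key_of_char_zero (hM : ¬ q ∣ M) (hMℓ : ¬ q ∣ M * ℓ) (n : ℤ)
    (hαb : (heckeAlphaBar Qb M ℓ).toRingHom.IsIntegral)
    (hβb : (heckeBetaBar Qb M ℓ).toRingHom.IsIntegral)
    (H0 : ∀ P : Place Qb (modularFunctionFieldBar (M * ℓ)), 0 < P.ord (jB (M * ℓ)) →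
      ¬ n ∣ P.ord (jB (M * ℓ)) →
      P.restrictAlong (heckeAlphaBar Qb M ℓ) hαb = P.restrictAlong (heckeBetaBar Qb M ℓ) hβb)
    (hα : (alphaC k M ℓ).toRingHom.IsIntegral) (hβ : (betaC k M ℓ).toRingHom.IsIntegral)
    (w : Place k (modularFunctionFieldFullC k (M * ℓ)))
    (hw0 : 0 ≤ w.ord (RedQ.xj k (M * ℓ))) (hw : ¬ n ∣ w.ord (RedQ.xj k (M * ℓ))) :
    w.restrictAlong (alphaC k M ℓ) hα = w.restrictAlong (betaC k M ℓ) hβ := by
  haveI := charP_of_liesOverPrime (k := k) hA hπ
  haveI : IsAlgClosed k := isAlgClosed_of_surjective hs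
  haveI := isFnField_fullC (k := k) M q hM
  haveI := isFnField_fullC (k := k) (M * ℓ) q hMℓ
  haveI := isFnField_bar M
  haveI := isFnField_bar (M * ℓ)
  obtain ⟨P, hP, hPn, hP0⟩ := exists_sp_not_dvd (chart_jB hA hπ hs hMℓ) (chart_jB_inv hA hπ hs hMℓ)
    hs n hw0 hw
  have hC := chart_jB hA hπ hs hM
  have h1 := sp_restrictAlong (R := redX M hA hπ hs hM) hC.isCoord.isRed (heckeAlphaBar Qb M ℓ)
    (alphaC k M ℓ) (fun f z h => isRed_alpha hA hπ hs hM ℓ hMℓ h) hαb hα (by
      have := al1_jB (M := M) (q := ℓ)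
      rw [this]
      exact isIntegral_self _) hP
  have h2 := sp_restrictAlong (R := redX M hA hπ hs hM) hC.isCoord.isRed (heckeBetaBar Qb M ℓ)
    (betaC k M ℓ) (fun f z h => isRed_beta hA hπ hs hM ℓ hMℓ h) hβb hβ (by
      have := isInt_be1_jB (M := M) (q := ℓ)
      rwa [al1_jB] at this) hP
  rw [H0 P hP0 hPn] at h1
  exact hC.sp_unique h1 h2

end Level

end Fermat.Agent.MazG
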